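import Fermat.Agent.TwoAdic.C0.Rank
import Mathlib.LinearAlgebra.FreeModule.PID
import Mathlib.LinearAlgebra.Basis.Submodule

/-!
# Homomorphisms of Hecke polynomials killing the annihilator of the integral cohomology
-/

set_option autoImplicit false

noncomputable section

open CongruenceSubgroup

namespace Fermat.Agent.TwoAdic.C0

open HeckeJ0 HeckeModule Mazur

variable {N : ℕ} [NeZero N]

/-- The operator at a prime in the Hecke algebra on forms. -/
def formsGen (N : ℕ) [NeZero N] (l : Nat.Primes) : CuspForm.heckeAlgebra N 2 ∅ :=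
  ⟨EigenRep.formsOp N l, by
    unfold EigenRep.formsOp
    split_ifs with h
    · exact CuspForm.heckeULin_mem_heckeAlgebra l.2 h (Set.notMem_empty _)
    · exact CuspForm.heckeTLin_mem_heckeAlgebra l.2 h (Set.notMem_empty _)⟩

/-- Hecke polynomials on forms. -/
def formsHom (N : ℕ) [NeZero N] : HeckePoly ℤ →+* CuspForm.heckeAlgebra N 2 ∅ :=
  MvPolynomial.eval₂Hom (Int.castRingHom _) (formsGen N)

theorem compat_formsHom (P : HeckePoly ℤ) :
    Compat ((matHom N ℤ P).map (Int.cast : ℤ → ℂ))
      (formsHom N P : Module.End ℂ (CuspForm (Gamma0 N) 2)) := by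
  induction P using MvPolynomial.induction_on with
  | C a =>
    have h : Compat (N := N) ((a : ℂ) • 1) ((a : ℂ) • 1) := compat_one.smul _
    rw [formsHom, MvPolynomial.eval₂Hom_C, ← MvPolynomial.algebraMap_eq, AlgHom.commutes,
      eq_intCast (Int.castRingHom _)]
    convert h using 1
    · ext i j
      rcases eq_or_ne i j with rfl | hij <;>
        simp [Matrix.intCast_apply, *]
    · rw [show (((a : CuspForm.heckeAlgebra N 2 ∅)) : Module.End ℂ (CuspForm (Gamma0 N) 2))
          = (CuspForm.heckeAlgebra N 2 ∅).val (a : CuspForm.heckeAlgebra N 2 ∅) from rfl,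
        map_intCast, Int.cast_smul_eq_zsmul, zsmul_one]
  | add P Q hP hQ =>
    rw [map_add, map_add, Matrix.map_add _ (fun a b => Int.cast_add a b), Subalgebra.coe_add]
    exact hP.add hQ
  | mul_X P l hP =>
    rw [map_mul, map_mul, matHom_X, map_intCast_mul, Subalgebra.coe_mul]
    refine hP.mul ?_
    rw [formsHom, MvPolynomial.eval₂Hom_X', heckeMatR]
    obtain ⟨p, hp, hs⟩ := exists_formsEnd (N := N) (P := heckeMatAt N l)
      (Algebra.subset_adjoin ⟨l, rfl⟩)
    have hpl : p = EigenRep.formsOp N l := LinearMap.ext fun f =>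
      perMap_injective N (by rw [hp, perMap_formsOp])
    rw [show (heckeMatAt N l).map (Int.cast : ℤ → ℤ) = heckeMatAt N l from
      Matrix.ext fun i j => by simp, show ((formsGen N l : CuspForm.heckeAlgebra N 2 ∅) :
        Module.End ℂ (CuspForm (Gamma0 N) 2)) = p from hpl.symm]
    exact fun f g => map_perPair hp hs f g

/-- A polynomial killing the lattice kills the forms. -/
theorem formsHom_eq_zero {P : HeckePoly ℤ} (hP : matHom N ℤ P = 0) : formsHom N P = 0 := by
  refine Subtype.ext ?_
  refine (compat_formsHom P).unique fun f g => ?_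
  rw [hP, Matrix.map_zero _ Int.cast_zero, Matrix.zero_mulVec]
  exact (map_zero (perPair N)).symm

variable {B : Type} [CommRing B]

variable (N) in
/-- The homomorphism kills every Hecke polynomial killing `H¹(Γ₀(N), ℤ)`. -/
def KillsCoh (Φ : HeckePoly ℤ →+* B) : Prop :=
  ∀ P : HeckePoly ℤ, (∀ u : Coh1 (trivRep N ℤ ℤ), P • u = 0) → Φ P = 0

/-- Homomorphisms of the Hecke algebra on forms kill it. -/
theorem killsCoh_formsHom (φ : CuspForm.heckeAlgebra N 2 ∅ →+* B) :
    KillsCoh N (φ.comp (formsHom N)) := fun P hP => by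
  have h0 : matHom N ℤ P = 0 := by
    refine Matrix.ext_of_mulVec_single fun i => ?_
    rw [Matrix.zero_mulVec]
    exact latClass_injective (by rw [← smul_latClass, hP, map_zero])
  rw [RingHom.comp_apply, formsHom_eq_zero h0, map_zero]

/-- A polynomial killing the lattice is killed, if an Eisenstein element maps to a unit. -/
theorem KillsCoh.eq_zero_of_matHom {Φ : HeckePoly ℤ →+* B} (hΦ : KillsCoh N Φ) {r : ℕ}
    [Fact r.Prime] (hr : (r : ZMod N) = 1) (hunit : IsUnit (Φ (eisen ℤ r))) {P : HeckePoly ℤ}
    (hP : matHom N ℤ P = 0) : Φ P = 0 := by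
  refine hunit.mul_left_eq_zero.mp ?_
  rw [← map_mul]
  refine hΦ _ fun u => ?_
  obtain ⟨a, ha⟩ := eisen_smul_mem_range hr u
  rw [mul_smul, ← ha, smul_latClass, hP, Matrix.zero_mulVec, map_zero]

variable {O : Type} [CommRing O] [IsDomain O] [CharZero O] (θ : O →+* B) (Φ : HeckePoly ℤ →+* B)

/-- The extension to Hecke polynomials with coefficients. -/
def extendHom : HeckePoly O →+* B := MvPolynomial.eval₂Hom θ fun l => Φ (MvPolynomial.X l)

omit [IsDomain O] [CharZero O] in
theorem extendHom_map (P : HeckePoly ℤ) :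
    extendHom θ Φ (MvPolynomial.map (Int.castRingHom O) P) = Φ P := by
  refine DFunLike.congr_fun (f := (extendHom θ Φ).comp (MvPolynomial.map (Int.castRingHom O)))
    (g := Φ) (MvPolynomial.ringHom_ext (fun a => ?_) fun l => ?_) P
  · simp [extendHom]
  · simp [extendHom]

/-- **The extension kills every polynomial killing the lattice.** -/
theorem extendHom_eq_zero (hΦ : KillsCoh N Φ) {r : ℕ} [Fact r.Prime] (hr : (r : ZMod N) = 1)
    (hunit : IsUnit (Φ (eisen ℤ r))) {x : HeckePoly O} (hx : matHom N O x = 0) :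
    extendHom θ Φ x = 0 := by
  classical
  -- a basis of the additive group generated by the coefficients
  let U : Submodule ℤ O := Submodule.span ℤ ((fun m => x.coeff m) '' (x.support : Set (Nat.Primes →₀ ℕ)))
  have : Module.Finite ℤ U := Module.Finite.span_of_finite ℤ (x.support.finite_toSet.image _)
  have : Module.IsTorsionFree ℤ U := Module.isTorsionFree_iff_smul_eq_zero.mpr fun n u h => by
    rcases eq_or_ne n 0 with hn | hn
    · exact Or.inl hn
    refine Or.inr (Subtype.ext ?_)
    have h' : (n : O) * (u : O) = 0 := by rw [← zsmul_eq_mul]; exact congrArg Subtype.val h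
    exact (mul_eq_zero.mp h').resolve_left (Int.cast_ne_zero.mpr hn)
  have : Module.Free ℤ U := Module.free_of_finite_type_torsion_free'
  let e := Module.Free.chooseBasis ℤ U
  have hmem : ∀ m ∈ x.support, x.coeff m ∈ U := fun m hm => Submodule.subset_span ⟨m, hm, rfl⟩
  -- the integral components
  let P : Module.Free.ChooseBasisIndex ℤ U → HeckePoly ℤ := fun j =>
    ∑ m ∈ x.support.attach, MvPolynomial.monomial m.1 (e.repr ⟨_, hmem m.1 m.2⟩ j)
  have hx' : x = ∑ j, MvPolynomial.C ((e j : U) : O) * MvPolynomial.map (Int.castRingHom O) (P j) := by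
    conv_lhs => rw [x.as_sum, ← Finset.sum_attach]
    simp only [P, map_sum, Finset.mul_sum, MvPolynomial.map_monomial, MvPolynomial.C_mul_monomial]
    rw [Finset.sum_comm]
    refine Finset.sum_congr rfl fun m _ => ?_
    rw [← map_sum]
    refine congrArg _ ?_
    have h := congrArg Subtype.val (e.sum_repr ⟨_, hmem m.1 m.2⟩)
    rw [Submodule.coe_sum] at h
    refine h.symm.trans (Finset.sum_congr rfl fun j _ => ?_)
    rw [Submodule.coe_smul, zsmul_eq_mul, mul_comm]
    rfl
  have hP : ∀ j, matHom N ℤ (P j) = 0 := by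
    intro j
    refine Matrix.ext fun a b => ?_
    have h0 : ∑ i, matHom N ℤ (P i) a b • (e i : U) = 0 := by
      refine Subtype.ext ?_
      rw [Submodule.coe_sum, ZeroMemClass.coe_zero]
      have h := congrFun (congrFun (congrArg (matHom N O) hx') a) b
      rw [hx, map_sum, Matrix.sum_apply, Matrix.zero_apply] at h
      rw [h]
      refine Finset.sum_congr rfl fun i _ => ?_
      rw [map_mul, ← MvPolynomial.algebraMap_eq, AlgHom.commutes, matHom_map,
        ← Algebra.smul_def, Matrix.smul_apply, Matrix.map_apply, smul_eq_mul, Submodule.coe_smul,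
        zsmul_eq_mul, mul_comm, eq_intCast]
    exact Fintype.linearIndependent_iff.mp e.linearIndependent _ h0 j
  rw [hx', map_sum]
  exact Finset.sum_eq_zero fun j _ => by
    rw [map_mul, extendHom_map, hΦ.eq_zero_of_matHom hr hunit (hP j), mul_zero]

end Fermat.Agent.TwoAdic.C0

end
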