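import Mathlib.RingTheory.Nakayama
import Mathlib.RingTheory.LocalRing.MaximalIdeal.Basic
import Mathlib.LinearAlgebra.Dimension.Constructions
import Mathlib.RingTheory.Finiteness.Nakayama
import Mathlib.LinearAlgebra.Dimension.Localization
import Mathlib.SetTheory.Cardinal.Finite
import Mathlib.LinearAlgebra.Dimension.RankNullity
import Mathlib.LinearAlgebra.Dimension.Finite
import Mathlib.LinearAlgebra.FreeModule.StrongRankCondition
import Mathlib.RingTheory.TensorProduct.Finite
import Mathlib.RingTheory.Finiteness.Prod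
import Mathlib.RingTheory.Noetherian.Basic

/-!
# Freeness of rank two and the count `q⁴`

From twice the rank and two generators to freeness of rank two, and the count `q⁴ ≤ card (C/IC)`.
-/

set_option autoImplicit false

universe uO uR uC

namespace Fermat.Agent.TwoAdic.C0

variable {O : Type uO} [CommRing O] [IsDomain O] {R : Type uR} [CommRing R] [Algebra O R]
  [Module.Finite O R] {C : Type uC} [AddCommGroup C] [Module O C] [Module R C] [IsScalarTower O R C]

/-- Two generators and twice the rank: free of rank two. -/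
theorem exists_basis_of_span_eq_top [IsNoetherianRing O] [Module.IsTorsionFree O R]
    (hrank : 2 * Module.finrank O R ≤ Module.finrank O C) {m : Fin 2 → C}
    (hm : Submodule.span R (Set.range m) = ⊤) :
    ∃ b : Module.Basis (Fin 2) R C, ⇑b = m := by
  let f : (Fin 2 → R) →ₗ[R] C := Fintype.linearCombination R m
  have hf : Function.Surjective f := fun c => by
    obtain ⟨a, ha⟩ := (Submodule.mem_span_range_iff_exists_fun R).mp (hm ▸ Submodule.mem_top : c ∈ _)
    exact ⟨a, by rw [← ha, Fintype.linearCombination_apply]⟩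
  have hle : Module.finrank O C ≤ Module.finrank O (Fin 2 → R) := by
    have := LinearMap.finrank_range_le (f.restrictScalars O)
    rwa [(LinearMap.range_eq_top (f := f.restrictScalars O)).mpr hf, finrank_top] at this
  have hpi : Module.finrank O (Fin 2 → R) ≤ 2 * Module.finrank O R := by
    let g : R × R →ₗ[O] (Fin 2 → R) := (LinearEquiv.finTwoArrow O R).symm.toLinearMap
    have := LinearMap.finrank_range_le g
    rw [LinearMap.range_eq_top.mpr (LinearEquiv.finTwoArrow O R).symm.surjective, finrank_top]
      at this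
    refine this.trans ?_
    have h1 := (LinearMap.ker (LinearMap.snd O R R)).finrank_quotient_add_finrank
    rw [((LinearMap.snd O R R).quotKerEquivOfSurjective LinearMap.snd_surjective).finrank_eq,
      LinearMap.ker_snd, LinearMap.finrank_range_of_inj LinearMap.inl_injective] at h1
    omega
  have hker := (LinearMap.ker (f.restrictScalars O)).finrank_quotient_add_finrank
  rw [((f.restrictScalars O).quotKerEquivOfSurjective hf).finrank_eq] at hker
  have hz : Module.finrank O (LinearMap.ker (f.restrictScalars O)) = 0 := by omega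
  have hinj : Function.Injective f := by
    refine (injective_iff_map_eq_zero _).mpr fun a ha => ?_
    obtain ⟨c, hc, h⟩ := Module.finrank_eq_zero_iff.mp hz ⟨a, ha⟩
    exact (smul_eq_zero.mp (congrArg Subtype.val h)).resolve_left hc
  refine ⟨(Pi.basisFun R (Fin 2)).map (LinearEquiv.ofBijective f ⟨hinj, hf⟩), funext fun i => ?_⟩
  rw [Module.Basis.map_apply, Pi.basisFun_apply]
  show Fintype.linearCombination R m (Pi.single i 1) = m i
  rw [Fintype.linearCombination_apply_single, one_smul]

/-- Two generators modulo the maximal ideal suffice. -/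
theorem exists_basis_of_generators [IsNoetherianRing O] [IsLocalRing R] [Module.IsTorsionFree O R]
    [Module.Finite O C]
    (hrank : 2 * Module.finrank O R ≤ Module.finrank O C)
    (hgen : ∃ m : Fin 2 → C,
      Submodule.span R (Set.range m) ⊔ IsLocalRing.maximalIdeal R • (⊤ : Submodule R C) = ⊤) :
    Nonempty (Module.Basis (Fin 2) R C) := by
  obtain ⟨m, hm⟩ := hgen
  have := Module.Finite.of_restrictScalars_finite O R C
  obtain ⟨b, -⟩ := exists_basis_of_span_eq_top hrank (m := m) (top_le_iff.mp
    (Submodule.le_of_le_smul_of_le_jacobson_bot Module.Finite.fg_top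
      (IsLocalRing.maximalIdeal_le_jacobson ⊥) hm.ge))
  exact ⟨b⟩

/-- A quotient of a free module of rank two has the square of the cardinality. -/
theorem card_quotient_smul_top (b : Module.Basis (Fin 2) R C) (I : Ideal R) :
    Nat.card (C ⧸ I • (⊤ : Submodule R C)) = Nat.card (R ⧸ I) ^ 2 := by
  let g : C →ₗ[R] (Fin 2 → R ⧸ I) := I.mkQ.compLeft (Fin 2) ∘ₗ b.equivFun.toLinearMap
  have hg : Function.Surjective g := fun y => by
    choose a ha using fun i => Submodule.mkQ_surjective I (y i)
    refine ⟨b.equivFun.symm a, funext fun i => ?_⟩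
    show I.mkQ (b.equivFun (b.equivFun.symm a) i) = y i
    rw [LinearEquiv.apply_symm_apply]
    exact ha i
  have hker : I • (⊤ : Submodule R C) = LinearMap.ker g := by
    refine le_antisymm (Submodule.smul_le.mpr fun r hr c _ => ?_) fun c hc => ?_
    · refine LinearMap.mem_ker.mpr (funext fun i => ?_)
      show Submodule.Quotient.mk (b.equivFun (r • c) i) = (0 : R ⧸ I)
      rw [Submodule.Quotient.mk_eq_zero, map_smul, Pi.smul_apply, smul_eq_mul]
      exact I.mul_mem_right _ hr
    · rw [← b.sum_equivFun c]
      exact sum_mem fun i _ => Submodule.smul_mem_smul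
        ((Submodule.Quotient.mk_eq_zero I).mp (congrFun (LinearMap.mem_ker.mp hc) i))
        Submodule.mem_top
  rw [Nat.card_congr ((Submodule.quotEquivOfEq _ _ hker ≪≫ₗ
    g.quotKerEquivOfSurjective hg).toEquiv), Nat.card_fun, Nat.card_fin]

omit [IsDomain O] [Module.Finite O R] in
/-- **The count.** With doubling of `R/I` and freeness of rank two, every source of `C/IC` has at
least `q⁴` elements modulo any ideal carried into `I`. -/
theorem pow_four_le_card (b : Module.Basis (Fin 2) R C) (I : Ideal R) {q : ℕ}
    (hdouble : q ^ 2 ≤ Nat.card (R ⧸ I)) {R₀ : Type*} [CommRing R₀] {M₀ : Type*} [AddCommGroup M₀]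
    [Module R₀ M₀] (J : Ideal R₀) [Finite (M₀ ⧸ J • (⊤ : Submodule R₀ M₀))]
    (f : R₀ → R) (hf : ∀ x ∈ J, f x ∈ I) (g : M₀ →+ C ⧸ I • (⊤ : Submodule R C))
    (hg : Function.Surjective g) (hgsmul : ∀ (x : R₀) (m : M₀), g (x • m) = f x • g m) :
    q ^ 4 ≤ Nat.card (M₀ ⧸ J • (⊤ : Submodule R₀ M₀)) := by
  have hJ : (J • (⊤ : Submodule R₀ M₀)).toAddSubgroup ≤ g.ker := fun x hx => by
    rw [Submodule.mem_toAddSubgroup] at hx
    refine Submodule.smul_induction_on hx (fun r hr m _ => ?_) fun x y hx hy => add_mem hx hy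
    rw [AddMonoidHom.mem_ker, hgsmul]
    obtain ⟨c, hc⟩ := Submodule.mkQ_surjective _ (g m)
    rw [← hc, Submodule.mkQ_apply, ← Submodule.Quotient.mk_smul, Submodule.Quotient.mk_eq_zero]
    exact Submodule.smul_mem_smul (hf r hr) Submodule.mem_top
  calc q ^ 4 = (q ^ 2) ^ 2 := by ring
    _ ≤ Nat.card (R ⧸ I) ^ 2 := Nat.pow_le_pow_left hdouble 2
    _ = Nat.card (C ⧸ I • (⊤ : Submodule R C)) := (card_quotient_smul_top b I).symm
    _ ≤ _ := @Nat.card_le_card_of_surjective (M₀ ⧸ J • (⊤ : Submodule R₀ M₀)) _ inferInstance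
      (QuotientAddGroup.lift (J • (⊤ : Submodule R₀ M₀)).toAddSubgroup g hJ) fun y => by
        obtain ⟨x, rfl⟩ := hg y
        exact ⟨QuotientAddGroup.mk x, rfl⟩

end Fermat.Agent.TwoAdic.C0
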