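import Fermat.Agent.TwoAdic.C0.Lattice
import Fermat.Agent.Engine.TRep.Compare
import Fermat.Agent.XHLite.TwistClass.Fricke
import Fermat.Agent.HeckeSemisimple.Cohomology
import Mathlib.LinearAlgebra.Dimension.Localization
import Mathlib.RingTheory.Localization.FractionRing

/-!
# A Hecke-stable piece of `H¹(Γ₀(N), O)` has twice the rank of its Hecke algebra
-/

set_option autoImplicit false

noncomputable section

open CongruenceSubgroup
open scoped MatrixGroups Matrix nonZeroDivisors

namespace Fermat.Agent.TwoAdic.C0

open HeckeJ0 HeckeModule EigenSystems Engine.TRep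

/-- The image of the Hecke polynomials in the endomorphisms of a module. -/
abbrev HeckeImage (O : Type) [CommRing O] (C : Type) [AddCommGroup C] [Module (HeckePoly O) C] :
    Type :=
  HeckePoly O ⧸ Module.annihilator (HeckePoly O) C

variable {N : ℕ} [NeZero N] {O : Type} [CommRing O] [IsDomain O] [CharZero O]

/-- Good homomorphisms with values in a domain of characteristic zero are given by coordinates. -/
theorem ofCoords_coords_domain {ψ : Additive (Gamma0 N) →+ O} (hψ : IsGoodHom N ψ) :
    ofCoords N (coords N ψ) = ψ := by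
  let f : O →+ FractionRing O := (algebraMap O (FractionRing O)).toAddMonoidHom
  have h := XHLite.ofCoords_coords_field (isGoodHom_map N f hψ)
  refine AddMonoidHom.ext fun g => IsFractionRing.injective O (FractionRing O) ?_
  exact (DFunLike.congr_fun (map_ofCoords N f (coords N ψ)) g).trans (DFunLike.congr_fun h g)

omit [IsDomain O] [CharZero O] in
/-- The cocycle with given coordinates. -/
def latCocycle (a : Fin (rk N) → O) : Cocycle (trivRep N O O) :=
  ⟨fun γ => ofCoords N a (Additive.ofMul γ), fun g h => by
    show ofCoords N a (Additive.ofMul (g * h)) =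
      ofCoords N a (Additive.ofMul g) + ofCoords N a (Additive.ofMul h)
    rw [ofMul_mul, map_add],
  fun k hk => by
    rw [Set.mem_singleton_iff] at hk
    subst hk
    exact isGoodHom_ofCoords N a _ (by simp [smallTrace, negOne, Matrix.trace_fin_two])⟩

/-- The cocycle with given coordinates, linearly. -/
def latCocycleLin : (Fin (rk N) → O) →ₗ[O] Cocycle (trivRep N O O) where
  toFun := latCocycle
  map_add' a b := Subtype.ext (funext fun γ => by
    show ofCoords N (a + b) (Additive.ofMul γ) =
      ofCoords N a (Additive.ofMul γ) + ofCoords N b (Additive.ofMul γ)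
    simp [ofCoords_apply, Finset.sum_add_distrib])
  map_smul' c a := Subtype.ext (funext fun γ => by
    show ofCoords N (c • a) (Additive.ofMul γ) = c * ofCoords N a (Additive.ofMul γ)
    simp [ofCoords_apply, Finset.mul_sum, mul_left_comm])

/-- The class with given coordinates. -/
def latClass : (Fin (rk N) → O) →ₗ[O] Coh1 (trivRep N O O) :=
  (toCoh (trivRep N O O)).comp latCocycleLin

omit [IsDomain O] [CharZero O] in
theorem classHom_latClass (a : Fin (rk N) → O) :
    classHom (latClass (N := N) a) = ofCoords N a := by
  show classHom (toCoh (trivRep N O O) (latCocycleLin a)) = _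
  rw [classHom_toCoh]
  exact AddMonoidHom.ext fun _ => rfl

omit [IsDomain O] [CharZero O] in
theorem latClass_injective : Function.Injective (latClass (N := N) (O := O)) := fun a b h => by
  rw [← coords_ofCoords N a, ← coords_ofCoords N b, ← classHom_latClass, ← classHom_latClass, h]

theorem heckeGen_latClass (l : Nat.Primes) (a : Fin (rk N) → O) :
    heckeGen (trivRep N O O) l (latClass a) = latClass (heckeMatR N O l *ᵥ a) := by
  have : Fact (l : ℕ).Prime := ⟨l.2⟩
  have : NeZero (l : ℕ) := ⟨l.2.ne_zero⟩
  apply classHom_injective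
  show classHom (heckeOp (trivRep N O O) (l : ℕ) (latClass a)) = _
  rw [classHom_heckeOp, classHom_latClass, classHom_latClass,
    ← ofCoords_coords_domain (isGoodHom_cohHecke (l : ℕ) (isGoodHom_ofCoords N a)),
    coords_cohHecke_ofCoords']
  congr 1
  funext i
  simp only [intAct, Matrix.mulVec, dotProduct, heckeMatR, Matrix.map_apply, zsmul_eq_mul]
  rfl

/-- Hecke polynomials act on lattice classes through their matrices. -/
theorem smul_latClass (x : HeckePoly O) (a : Fin (rk N) → O) :
    x • latClass (N := N) a = latClass (matHom N O x *ᵥ a) := by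
  induction x using MvPolynomial.induction_on generalizing a with
  | C c =>
    rw [← MvPolynomial.algebraMap_eq, algebraMap_smul, AlgHom.commutes, ← map_smul,
      Algebra.algebraMap_eq_smul_one, Matrix.smul_mulVec, Matrix.one_mulVec]
  | add P Q hP hQ => rw [add_smul, hP, hQ, map_add, ← map_add, Matrix.add_mulVec]
  | mul_X P l hP =>
    rw [mul_smul, heckePoly_smul_def _ (MvPolynomial.X l), heckeHom_X, heckeGen_latClass, hP,
      map_mul, matHom_X, Matrix.mulVec_mulVec]

/-- The multiples of an Eisenstein element lie on the lattice. -/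
theorem eisen_smul_mem_range {r : ℕ} [Fact r.Prime] (hr : (r : ZMod N) = 1)
    (u : Coh1 (trivRep N O O)) : eisen O r • u ∈ LinearMap.range (latClass (N := N) (O := O)) := by
  obtain ⟨z, rfl⟩ := toCoh_surjective _ u
  obtain ⟨w, hw⟩ := toCoh_surjective (trivRep N O O) (eisen O r • toCoh _ z)
  refine ⟨coords N (homOf (fun _ => rfl) w), ?_⟩
  rw [← hw]
  apply classHom_injective
  rw [classHom_latClass, classHom_toCoh, ofCoords_coords_domain
    (isGoodHom_of_parabolic (HeckeSemisimple.isParabolicHom_eisen (fun _ => rfl) hr hw))]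

section Span

variable {K : Type} [Field K] [Algebra O K] [IsFractionRing O K] {V : Type} [AddCommGroup V]
  [Module K V] [Module O V] [IsScalarTower O K V]

omit [CharZero O] in
/-- The rank of a lattice is the dimension of its span. -/
theorem finrank_span_eq (U : Submodule O V) :
    Module.finrank K (Submodule.span K (U : Set V)) = Module.finrank O U := by
  let f : U →ₗ[O] Submodule.span K (U : Set V) :=
    { toFun := fun u => ⟨u, Submodule.subset_span u.2⟩
      map_add' := fun _ _ => rfl
      map_smul' := fun _ _ => rfl }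
  have hloc : IsLocalizedModule O⁰ f := by
    refine ⟨fun s => ?_, fun v => ?_, fun {a b} h => ⟨1, ?_⟩⟩
    · have hs : algebraMap O K (s : O) ≠ 0 := fun h => nonZeroDivisors.coe_ne_zero s
        (IsFractionRing.injective O K (h.trans (map_zero _).symm))
      refine (Module.End.isUnit_iff _).mpr ⟨fun a b h => ?_, fun b =>
        ⟨(algebraMap O K (s : O))⁻¹ • b, ?_⟩⟩
      · rw [Module.algebraMap_end_apply, Module.algebraMap_end_apply,
          ← algebraMap_smul (A := K) (s : O) a, ← algebraMap_smul (A := K) (s : O) b] at h
        exact smul_right_injective _ hs h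
      · rw [Module.algebraMap_end_apply, ← algebraMap_smul (A := K) (s : O), smul_smul,
          mul_inv_cancel₀ hs, one_smul]
    · obtain ⟨v, hv⟩ := v
      induction hv using Submodule.span_induction with
      | mem x hx => exact ⟨(⟨x, hx⟩, 1), Subtype.ext (one_smul _ x)⟩
      | zero => exact ⟨(0, 1), Subtype.ext (one_smul _ (0 : V))⟩
      | add x y _ _ ihx ihy =>
        obtain ⟨⟨u, s⟩, hu⟩ := ihx
        obtain ⟨⟨w, t⟩, hw⟩ := ihy
        refine ⟨((t : O) • u + (s : O) • w, s * t), Subtype.ext ?_⟩
        have hu' : (s : O) • x = u := congrArg Subtype.val hu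
        have hw' : (t : O) • y = w := congrArg Subtype.val hw
        show ((s : O) * t) • (x + y) = (t : O) • (u : V) + (s : O) • (w : V)
        rw [smul_add, mul_comm, mul_smul, hu', mul_comm, mul_smul, hw']
      | smul c x _ ih =>
        obtain ⟨⟨u, s⟩, hu⟩ := ih
        obtain ⟨a, d, hd, rfl⟩ := IsFractionRing.div_surjective (A := O) c
        refine ⟨(a • u, s * ⟨d, hd⟩), Subtype.ext ?_⟩
        have hu' : (s : O) • x = u := congrArg Subtype.val hu
        have hd0 : algebraMap O K d ≠ 0 := fun h => nonZeroDivisors.ne_zero hd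
          (IsFractionRing.injective O K (h.trans (map_zero _).symm))
        show ((s : O) * d) • ((algebraMap O K a / algebraMap O K d) • x) = a • (u : V)
        rw [← hu', ← algebraMap_smul K ((s : O) * d), ← algebraMap_smul K a,
          ← algebraMap_smul K (s : O) x, smul_smul, smul_smul, map_mul]
        congr 1
        field_simp
    · exact congrArg _ (Subtype.ext (congrArg Subtype.val h :))
  rw [IsLocalization.finrank_eq (R := O) K O⁰ le_rfl]
  exact IsLocalizedModule.finrank_eq O⁰ f le_rfl

end Span

variable {C : Type} [AddCommGroup C] [Module O C] [Module (HeckePoly O) C]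
  [IsScalarTower O (HeckePoly O) C]

/-- **Rank count.** A quotient `C` of `H¹(Γ₀(N), O)`, up to torsion, by the kernel of a stable
multiple `s` of an Eisenstein element has rank twice the rank of its Hecke algebra. -/
theorem finrank_eq_two_mul [Module.IsTorsionFree O C] [Module.Finite O C]
    (φ : Coh1 (trivRep N O O) →ₗ[HeckePoly O] C) {o : O} (ho : o ≠ 0)
    (hcok : ∀ c, o • c ∈ LinearMap.range (φ.restrictScalars O)) {s : HeckePoly O} {r : ℕ}
    [Fact r.Prime] (hr : (r : ZMod N) = 1) (hrs : eisen O r ∣ s)
    (hker : ∀ u, φ u = 0 ↔ s • u = 0)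
    (hstab : ∀ u : Coh1 (trivRep N O O), s • s • u = 0 → s • u = 0) :
    Module.finrank O C = 2 * Module.finrank O (HeckeImage O C) := by
  obtain ⟨s', hs'⟩ := hrs
  set ψ : (Fin (rk N) → O) →ₗ[O] C := (φ.restrictScalars O).comp (latClass (N := N)) with hψ
  set M := matHom N O s with hM
  have hsmul : ∀ (x : HeckePoly O) a, x • ψ a = ψ (matHom N O x *ᵥ a) := fun x a => by
    show x • φ (latClass a) = φ (latClass _)
    rw [← smul_latClass, map_smul]
  have hψker : ∀ a, ψ a = 0 ↔ M *ᵥ a = 0 := fun a => by
    show φ (latClass a) = 0 ↔ _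
    rw [hker, smul_latClass, latClass_injective.eq_iff' (map_zero _)]
  have hinto : ∀ c, s • o • c ∈ LinearMap.range ψ := fun c => by
    obtain ⟨u, hu⟩ := hcok c
    obtain ⟨a, ha⟩ := eisen_smul_mem_range hr (s' • u)
    exact ⟨a, by
      show φ (latClass a) = _
      rw [ha, ← mul_smul, ← hs', map_smul, ← hu]
      rfl⟩
  let j : C →ₗ[O] LinearMap.range ψ :=
    { toFun := fun c => ⟨s • o • c, hinto c⟩
      map_add' := fun a b => Subtype.ext (by
        show s • o • (a + b) = s • o • a + s • o • b
        rw [smul_add, smul_add])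
      map_smul' := fun k a => Subtype.ext (by
        show s • o • k • a = k • s • o • a
        rw [smul_comm o k, smul_comm s k]) }
  have hj : Function.Injective j := (injective_iff_map_eq_zero j).mpr fun c hc => by
    have hc' : s • o • c = 0 := congrArg Subtype.val hc
    obtain ⟨u, hu⟩ := hcok c
    rw [← hu, LinearMap.restrictScalars_apply, ← map_smul, hker] at hc'
    have h0 : φ u = 0 := (hker u).mpr (hstab u hc')
    rw [LinearMap.restrictScalars_apply, h0] at hu
    exact (smul_eq_zero.mp hu.symm).resolve_left ho
  have hC : Module.finrank O C = Module.finrank O (LinearMap.range M.mulVecLin) := by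
    rw [le_antisymm (LinearMap.finrank_le_finrank_of_injective hj) (Submodule.finrank_le _),
      ← ψ.quotKerEquivRange.finrank_eq, ← M.mulVecLin.quotKerEquivRange.finrank_eq,
      (Submodule.quotEquivOfEq (LinearMap.ker ψ) (LinearMap.ker M.mulVecLin)
        (Submodule.ext fun a => hψker a)).finrank_eq]
  set L : HeckePoly O →ₗ[O] Matrix (Fin (rk N)) (Fin (rk N)) O :=
    (matHom N O).toLinearMap.comp (LinearMap.mulLeft O s) with hL
  have hann : (Module.annihilator (HeckePoly O) C).restrictScalars O = LinearMap.ker L := by
    refine Submodule.ext fun x => ?_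
    rw [Submodule.restrictScalars_mem, Module.mem_annihilator, LinearMap.mem_ker]
    show _ ↔ matHom N O (s * x) = 0
    constructor
    · intro hx
      refine Matrix.ext_of_mulVec_single fun i => ?_
      rw [Matrix.zero_mulVec, map_mul, ← Matrix.mulVec_mulVec, ← hM, ← hψker, ← hsmul, hx]
    · intro hx c
      apply hj
      rw [map_zero]
      refine Subtype.ext ?_
      obtain ⟨a, ha⟩ := hinto c
      show s • o • x • c = 0
      rw [smul_comm o x, smul_comm s x, ← ha, hsmul, hψker, hM, Matrix.mulVec_mulVec, ← map_mul,
        hx, Matrix.zero_mulVec]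
  have hT : Module.finrank O (HeckeImage O C) = Module.finrank O (LinearMap.range L) := by
    rw [← L.quotKerEquivRange.finrank_eq]
    exact ((Submodule.Quotient.restrictScalarsEquiv O _).symm ≪≫ₗ
      Submodule.quotEquivOfEq _ _ hann).finrank_eq
  rw [hC, hT]
  -- everything over the fraction field
  set K := FractionRing O
  have : CharZero K := charZero_of_injective_algebraMap (IsFractionRing.injective O K)
  let cast₁ : (Fin (rk N) → O) →ₗ[O] (Fin (rk N) → K) :=
    LinearMap.funLeft O K id ∘ₗ (Algebra.linearMap O K).compLeft (Fin (rk N))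
  let cast₂ : Matrix (Fin (rk N)) (Fin (rk N)) O →ₗ[O] Matrix (Fin (rk N)) (Fin (rk N)) K :=
    (Algebra.linearMap O K).mapMatrix
  have hcast₁ : Function.Injective cast₁ := fun a b h => funext fun i =>
    IsFractionRing.injective O K (congrFun h i)
  have hcast₂ : Function.Injective cast₂ := fun a b h => Matrix.ext fun i k =>
    IsFractionRing.injective O K (congrFun (congrFun h i) k)
  set MK := M.map (algebraMap O K) with hMK
  have hmv : ∀ a, cast₁ (M *ᵥ a) = MK *ᵥ cast₁ a := fun a => funext fun i =>
    RingHom.map_mulVec (algebraMap O K) M a i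
  have h1 : Module.finrank O (LinearMap.range M.mulVecLin) = MK.rank := by
    rw [(Submodule.equivMapOfInjective cast₁ hcast₁ _).finrank_eq, ← finrank_span_eq (K := K)]
    refine congrArg (fun U : Submodule K _ => Module.finrank K U) (le_antisymm ?_ ?_)
    · refine Submodule.span_le.mpr ?_
      rintro _ ⟨_, ⟨a, rfl⟩, rfl⟩
      exact ⟨cast₁ a, (hmv a).symm⟩
    · rintro _ ⟨v, rfl⟩
      rw [Matrix.mulVecLin_apply, pi_eq_sum_univ' v, Matrix.mulVec_sum]
      refine sum_mem fun i _ => ?_
      rw [Matrix.mulVec_smul]
      refine Submodule.smul_mem _ _ (Submodule.subset_span ⟨_, ⟨Pi.single i 1, rfl⟩, ?_⟩)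
      rw [Matrix.mulVecLin_apply, hmv]
      congr 1
      funext k
      simp [cast₁, Pi.single_apply, apply_ite (algebraMap O K)]
  have hMKmem : MK = matHom N K (MvPolynomial.map (algebraMap O K) s) :=
    (matHom_map N (algebraMap O K) s).symm
  have hx : ∀ x : HeckePoly O, cast₂ (L x) =
      MK * matHom N K (MvPolynomial.map (algebraMap O K) x) := fun x => by
    show (matHom N O (s * x)).map (algebraMap O K) = _
    rw [map_mul, Matrix.map_mul, ← hM, ← hMK, ← matHom_map]
  have h2 : Module.finrank O (LinearMap.range L)
      = Module.finrank K ((matSpace N K).map (LinearMap.mulLeft K MK)) := by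
    rw [(Submodule.equivMapOfInjective cast₂ hcast₂ _).finrank_eq, ← finrank_span_eq (K := K)]
    refine congrArg (fun U : Submodule K _ => Module.finrank K U) (le_antisymm ?_ ?_)
    · refine Submodule.span_le.mpr ?_
      rintro _ ⟨_, ⟨x, rfl⟩, rfl⟩
      exact ⟨_, ⟨_, rfl⟩, (hx x).symm⟩
    · rw [matSpace_eq_span, Submodule.map_span, Submodule.span_le]
      rintro _ ⟨_, ⟨P, rfl⟩, rfl⟩
      refine Submodule.subset_span ⟨_, ⟨MvPolynomial.map (Int.castRingHom O) P, rfl⟩, ?_⟩
      rw [hx, MvPolynomial.map_map, matHom_map, LinearMap.mulLeft_apply,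
        Subsingleton.elim ((algebraMap O K).comp (Int.castRingHom O)) (Int.castRingHom K)]
      rfl
  rw [h1, h2]
  exact rank_eq_two_mul N ⟨_, hMKmem.symm⟩

end Fermat.Agent.TwoAdic.C0

end
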