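import Fermat.Agent.TwoAdic.C0.Hecke
import Fermat.Agent.TwoAdic.C0.Rank
import Fermat.Agent.HeckeModule.Finite
import Fermat.Agent.TwoAdic.C0.Count

/-!
# The signed part has twice the rank of its Hecke algebra

The signed part of an Atkin–Lehner setup with vanishing lower levels has twice the rank of its
full Hecke algebra.
-/

set_option autoImplicit false

open CongruenceSubgroup IsLocalRing

namespace Fermat.Agent.TwoAdic

open HeckeJ0 LevelRaising HeckeModule

attribute [local instance] ALSetup.isPrime

namespace C0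

/-- The rank count for a representation equal to the trivial one. -/
theorem finrank_eq_two_mul_of_eq {N : ℕ} [NeZero N] {O : Type} [CommRing O] [IsDomain O]
    [CharZero O] {C : Type} [AddCommGroup C] [Module O C] [Module (HeckePoly O) C]
    [IsScalarTower O (HeckePoly O) C] [Module.IsTorsionFree O C] [Module.Finite O C]
    {ρ : Representation O (ZMod N)ˣ O} (hρ : ρ = trivRep N O O)
    (φ : Coh1 ρ →ₗ[HeckePoly O] C) {o : O} (ho : o ≠ 0)
    (hcok : ∀ c, o • c ∈ LinearMap.range (φ.restrictScalars O)) {s : HeckePoly O} {r : ℕ}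
    [Fact r.Prime] (hr : (r : ZMod N) = 1) (hrs : eisen O r ∣ s)
    (hker : ∀ u, φ u = 0 ↔ s • u = 0)
    (hstab : ∀ u : Coh1 ρ, s • s • u = 0 → s • u = 0) :
    Module.finrank O C = 2 * Module.finrank O (HeckeImage O C) := by
  subst hρ
  exact finrank_eq_two_mul φ ho hcok hr hrs hker hstab

attribute [local instance] Module.quotientAnnihilator

/-- The Hecke image of a torsion-free module is torsion free. -/
theorem isTorsionFree_heckeImage {O : Type} [CommRing O] [IsDomain O] {C : Type} [AddCommGroup C]
    [Module O C] [Module (HeckePoly O) C] [IsScalarTower O (HeckePoly O) C]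
    [Module.IsTorsionFree O C] : Module.IsTorsionFree O (HeckeImage O C) := by
  refine Module.isTorsionFree_iff_smul_eq_zero.mpr fun a x h => ?_
  obtain ⟨P, rfl⟩ := Ideal.Quotient.mk_surjective x
  rcases eq_or_ne a 0 with ha | ha
  · exact Or.inl ha
  refine Or.inr (Ideal.Quotient.eq_zero_iff_mem.mpr (Module.mem_annihilator.mpr fun c => ?_))
  have h1 : a • P • c = 0 := by
    have h2 : Ideal.Quotient.mk (Module.annihilator (HeckePoly O) C) (a • P) = 0 := h
    rw [← smul_assoc, Module.mem_annihilator.mp (Ideal.Quotient.eq_zero_iff_mem.mp h2) c]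
  exact (smul_eq_zero.mp h1).resolve_left ha

end C0

namespace ALSetup

variable {O : Type} [CommRing O] [IsLocalRing O] {T : ALSetup O} {V : Finset ℕ} (hV : V ⊆ T.W)
  (hχ : T.χ = 1) (hlow : T.LowerVanish V)

include hχ in
/-- For a trivial character the coefficients of a setup are constant. -/
lemma scalarRep_char_eq :
    scalarRep (T.char V) O = trivRep (T.level V) O O :=
  MonoidHom.ext fun u => LinearMap.ext fun a => by
    rw [scalarRep_apply, levelChar_eq_one T.χ hχ, one_smul]
    rfl

variable (T) in
/-- `1 - c_e X_e`, which is `1 + w_e` on the localisation. -/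
noncomputable def signFactor (e : ℕ) : HeckePoly O :=
  if h : e.Prime then 1 - MvPolynomial.C (T.c e) * MvPolynomial.X (⟨e, h⟩ : Nat.Primes) else 1

variable (T V) in
/-- `∏ (1 - c_e X_e)`. -/
noncomputable def signPoly : HeckePoly O := ∏ e ∈ V, T.signFactor e

include hχ hlow in
lemma signFactor_smul {e : ℕ} (he : e ∈ V) (x : T.H V O) :
    T.signFactor e • x = x + T.w O hV e x := by
  have : Fact e.Prime := ⟨T.prime e (hV he)⟩
  have hdef : T.signFactor e = ((1 : HeckePoly O) - (MvPolynomial.C (T.c e) : HeckePoly O) *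
      (MvPolynomial.X (⟨e, T.prime e (hV he)⟩ : Nat.Primes) : HeckePoly O)) :=
    dif_pos (T.prime e (hV he))
  rw [hdef, sub_smul, one_smul, mul_smul,
    ← MvPolynomial.algebraMap_eq, algebraMap_smul, X_smul_eq hV hχ hlow he, smul_neg, smul_smul,
    c_mul_c hV hχ he, one_smul, sub_neg_eq_add]

include hχ hlow in
lemma signPoly_smul_mem (x : T.H V O) : T.signPoly V • x ∈ T.signed O hV := by
  refine T.mem_signed.mpr fun e he => ?_
  rw [signPoly, ← Finset.mul_prod_erase V _ he, mul_smul, signFactor_smul hV hχ hlow he, map_add,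
    T.w_w hV he, add_comm]

include hχ hlow in
lemma signPoly_smul_of_mem {x : T.H V O} (hx : x ∈ T.signed O hV) :
    T.signPoly V • x = (2 ^ V.card : O) • x := by
  suffices h : ∀ U, U ⊆ V → (∏ e ∈ U, T.signFactor e) • x = (2 ^ U.card : O) • x from h V subset_rfl
  intro U
  induction U using Finset.induction_on with
  | empty => intro _; rw [Finset.prod_empty, one_smul, Finset.card_empty, pow_zero, one_smul]
  | insert a U ha ih =>
    intro hU
    have haV : a ∈ V := hU (Finset.mem_insert_self a U)
    rw [Finset.prod_insert ha, mul_smul, ih ((Finset.subset_insert a U).trans hU),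
      smul_comm, signFactor_smul hV hχ hlow haV, T.mem_signed.mp hx a haV,
      Finset.card_insert_of_notMem ha, pow_succ, mul_smul, two_smul]

section Complete

variable [IsNoetherianRing O] [IsAdicComplete (maximalIdeal O) O]

/-- The signed part is finite over `O`. -/
theorem finite_signedHecke : Module.Finite O (signedHecke hV hχ hlow) :=
  have := (T.free_signed hV).1
  Module.Finite.equiv (signedHeckeEquiv hV hχ hlow).symm

/-- The signed part is free over `O`. -/
theorem free_signedHecke : Module.Free O (signedHecke hV hχ hlow) :=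
  have := (T.free_signed hV).2
  Module.Free.of_equiv (signedHeckeEquiv hV hχ hlow).symm

/-- The full Hecke algebra of the signed part is finite. -/
theorem finite_heckeImage :
    Module.Finite O (C0.HeckeImage O (signedHecke hV hχ hlow)) := by
  have := finite_signedHecke hV hχ hlow
  obtain ⟨k, v, hv⟩ := Module.Finite.exists_fin (R := O) (M := signedHecke hV hχ hlow)
  let L : HeckePoly O →ₗ[O] (Fin k → signedHecke hV hχ hlow) :=
    LinearMap.pi fun i => (LinearMap.toSpanSingleton (HeckePoly O) _ (v i)).restrictScalars O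
  have hL : (Module.annihilator (HeckePoly O) (signedHecke hV hχ hlow)).restrictScalars O
      = LinearMap.ker L := by
    refine Submodule.ext fun P => ?_
    rw [Submodule.restrictScalars_mem, Module.mem_annihilator, LinearMap.mem_ker]
    refine ⟨fun h => funext fun i => h (v i), fun h c => ?_⟩
    have : c ∈ Submodule.span O (Set.range v) := hv ▸ Submodule.mem_top
    induction this using Submodule.span_induction with
    | mem y hy => obtain ⟨i, rfl⟩ := hy; exact congrFun h i
    | zero => exact smul_zero P
    | add y z _ _ hy hz => rw [smul_add, hy, hz, add_zero]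
    | smul a y _ hy => rw [smul_comm, hy, smul_zero]
  exact Module.Finite.equiv (L.quotKerEquivRange.symm ≪≫ₗ
    Submodule.quotEquivOfEq _ _ hL.symm ≪≫ₗ Submodule.Quotient.restrictScalarsEquiv O _)

include hV hχ in
/-- The rank count for the image of a projection of localised cohomology. -/
theorem finrank_proj_eq_two_mul [IsDomain O] [CharZero O]
    (C : Submodule (HeckePoly O) (T.H V O)) [Module.IsTorsionFree O C] [Module.Finite O C]
    {π : HeckePoly O} {c : O} (hc : c ≠ 0) (hπ : ∀ x, π • x ∈ C)
    (hπC : ∀ x ∈ C, π • x = c • x) :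
    Module.finrank O C = 2 * Module.finrank O (C0.HeckeImage O C) := by
  have hN : NeZero (T.level V) := ⟨T.level_ne_zero hV⟩
  have := finite_coh1 (scalarRep (T.char V) O)
  set ρ := scalarRep (T.char V) O
  let φ : Coh1 ρ →ₗ[HeckePoly O] C := LinearMap.codRestrict _
    ((LinearMap.lsmul (HeckePoly O) (T.H V O) π).comp (toLoc (awayMonoid T.m) ρ)) fun _ => hπ _
  have hcoe : ∀ u, (φ u : T.H V O) = π • toLoc (awayMonoid T.m) ρ u := fun _ => rfl
  obtain ⟨r, hr, hr1, hE⟩ := T.nonEisenstein hV
  have : Fact r.Prime := ⟨hr⟩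
  -- a member of the multiplicative set with the largest kernel
  obtain ⟨K, ⟨a₀, ha₀, rfl⟩, hmax⟩ := set_has_maximal_iff_noetherian.mpr
    (inferInstance : IsNoetherian O (Coh1 ρ))
    {K | ∃ a ∈ awayMonoid T.m, K = LinearMap.ker
      (((LinearMap.lsmul (HeckePoly O) (Coh1 ρ)) (a * π)).restrictScalars O)}
    ⟨_, 1, one_mem _, rfl⟩
  have hkle : ∀ a ∈ awayMonoid T.m, ∀ u : Coh1 ρ, (a * π) • u = 0 →
      (a₀ * eisen O r * π) • u = 0 := fun a ha u hu => by
    have hle : ∀ b : HeckePoly O, ∀ v : Coh1 ρ, (a₀ * π) • v = 0 → (a₀ * b * π) • v = 0 :=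
      fun b v hv => by rw [show a₀ * b * π = b * (a₀ * π) by ring, mul_smul, hv, smul_zero]
    have hb : (a₀ * (eisen O r * a) * π) • u = 0 := by
      rw [show a₀ * (eisen O r * a) * π = a₀ * eisen O r * (a * π) by ring, mul_smul, hu, smul_zero]
    by_contra h
    refine hmax (LinearMap.ker (((LinearMap.lsmul (HeckePoly O) (Coh1 ρ))
      (a₀ * (eisen O r * a) * π)).restrictScalars O)) ⟨_, mul_mem ha₀ (mul_mem hE ha), rfl⟩
      (lt_of_le_not_ge (fun v hv => hle _ v hv) fun hge => h ?_)
    exact hle _ u (hge hb)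
  have hker : ∀ u, φ u = 0 ↔ (a₀ * eisen O r * π) • u = 0 := fun u => by
    rw [Subtype.ext_iff, hcoe, ZeroMemClass.coe_zero, ← map_smul, toLoc,
      LocalizedModule.mkLinearMap_apply, ← LocalizedModule.zero_mk (1 : awayMonoid T.m),
      LocalizedModule.mk_eq]
    constructor
    · rintro ⟨t, ht⟩
      refine hkle t t.2 u ?_
      simpa [Submonoid.smul_def, mul_smul] using ht
    · intro h
      refine ⟨⟨_, mul_mem ha₀ hE⟩, ?_⟩
      simpa [Submonoid.smul_def, mul_smul] using h
  refine C0.finrank_eq_two_mul_of_eq (scalarRep_char_eq hχ) φ hc (fun x => ?_) hr1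
    (Dvd.intro (a₀ * π) (by ring)) hker fun u hu => ?_
  · obtain ⟨u, hu⟩ := toLoc_surjective ρ T.m T.le (x : T.H V O)
    refine ⟨u, Subtype.ext ?_⟩
    rw [LinearMap.restrictScalars_apply, hcoe, hu, hπC _ x.2]
    rfl
  · rw [← hker] at hu ⊢
    have hu' : (π • π) • toLoc (awayMonoid T.m) ρ u = 0 := by
      have h1 := congrArg Subtype.val hu
      rw [hcoe, ZeroMemClass.coe_zero, map_smul, smul_comm] at h1
      have hunit := (Module.End.isUnit_iff _).mp (IsLocalizedModule.map_units
        (LocalizedModule.mkLinearMap (awayMonoid T.m) (Coh1 ρ))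
        (⟨_, mul_mem ha₀ hE⟩ : awayMonoid T.m))
      refine hunit.1 (Eq.trans ?_ (map_zero _).symm)
      rw [Module.algebraMap_end_apply, smul_eq_mul, ← h1]
      simp only [smul_smul]
      congr 1
      ring
    rw [smul_eq_mul, mul_smul, ← hcoe, hπC _ (φ u).2, ← Submodule.coe_smul_of_tower,
      Submodule.coe_eq_zero] at hu'
    exact (smul_eq_zero.mp hu').resolve_left hc

/-- **`rank C₀ = 2 rank T₀`.** -/
theorem finrank_signed_eq_two_mul [IsDomain O] [CharZero O] :
    Module.finrank O (T.signed O hV)
      = 2 * Module.finrank O (C0.HeckeImage O (signedHecke hV hχ hlow)) := by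
  have := finite_signedHecke hV hχ hlow
  have := free_signedHecke hV hχ hlow
  rw [← (signedHeckeEquiv hV hχ hlow).finrank_eq]
  exact finrank_proj_eq_two_mul hV hχ _ (pow_ne_zero V.card two_ne_zero)
    (signPoly_smul_mem hV hχ hlow) fun x hx => signPoly_smul_of_mem hV hχ hlow hx

include hV hχ in
/-- The same count for all of the localised cohomology. -/
theorem finrank_H_eq_two_mul [IsDomain O] [CharZero O] :
    Module.finrank O (T.H V O) = 2 * Module.finrank O (C0.HeckeImage O
      (⊤ : Submodule (HeckePoly O) (T.H V O))) := by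
  have := (T.free_H hV).1
  have := (T.free_H hV).2
  let e : (⊤ : Submodule (HeckePoly O) (T.H V O)) ≃ₗ[O] T.H V O :=
    Submodule.topEquiv.restrictScalars O
  have := Module.Finite.equiv e.symm
  have := Module.Free.of_equiv e.symm
  rw [← e.finrank_eq]
  exact finrank_proj_eq_two_mul hV hχ ⊤ (π := 1) one_ne_zero (fun _ => Submodule.mem_top)
    fun x _ => by rw [one_smul, one_smul]

end Complete

end ALSetup

end Fermat.Agent.TwoAdic
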