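import Fermat.Agent.TwoAdic.C0.Transfer
import Fermat.Agent.TwoAdic.Modules.LocCompare
import Mathlib.Algebra.DualNumber

/-!
# The doubling count, away from a larger set of primes

The count from doubling with the ideal generated by the operators away from a larger set, as
needed when `2` is outside `T.S`: `T₂ ↦ 1 + ε` is not residual.
-/

set_option autoImplicit false

open CongruenceSubgroup IsLocalRing
open scoped DualNumber

namespace Fermat.Agent.TwoAdic

open HeckeJ0 LevelRaising HeckeModule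

attribute [local instance] ALSetup.isPrime Module.quotientAnnihilator

namespace ALSetup

variable {O : Type} [CommRing O] [IsLocalRing O] {T : ALSetup O} {V : Finset ℕ} (hV : V ⊆ T.W)
  (hχ : T.χ = 1) (hlow : T.LowerVanish V)

/-- The residual map of `O` into the dual numbers. -/
noncomputable def resDual : O →+* (ResidueField O)[ε] :=
  (TrivSqZeroExt.inlHom (ResidueField O) (ResidueField O)).comp (residue O)

variable (T V) in
/-- The ideal of `T₀` of the maximal ideal of `O` and of the elements of `m` away from `S₂`. -/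
noncomputable def residualIdealAway {S₂ : Set ℕ} (hS₂ : T.S ⊆ S₂) :
    Ideal (C0.HeckeImage O (signedHecke hV hχ hlow)) :=
  (maximalIdeal O).map (algebraMap O (C0.HeckeImage O (signedHecke hV hχ hlow))) ⊔
    (T.m.comap (restrictAway O hS₂)).map
      ((Ideal.Quotient.mk (Module.annihilator (HeckePoly O) (signedHecke hV hχ hlow))).comp
        (awayIncl O S₂ : AwayPoly O S₂ →+* HeckePoly O))

/-- Generators of the ideal. -/
theorem mk_mem_residualIdealAway {S₂ : Set ℕ} (hS₂ : T.S ⊆ S₂) {a : AwayPoly O S₂}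
    (ha : restrictAway O hS₂ a ∈ T.m) :
    Ideal.Quotient.mk (Module.annihilator (HeckePoly O) (signedHecke hV hχ hlow)) (awayIncl O S₂ a)
      ∈ T.residualIdealAway V hV hχ hlow hS₂ :=
  Ideal.mem_sup_right (Ideal.mem_map_of_mem _ (Ideal.mem_comap.mpr ha))

variable [IsNoetherianRing O] [IsAdicComplete (maximalIdeal O) O] [IsDomain O] [CharZero O]
  [Finite (ResidueField O)] [NeZero (T.level V)]
  (b : Module.Basis (Fin 2) (T.HeckeH V) (T.H V O))

include hV hχ hlow b in
/-- **Doubling for `T₀`**, only residual away from `S₂`. -/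
theorem card_le_quotient_residualIdealAway {S₂ : Set ℕ} (hS₂ : T.S ⊆ S₂) {B : Type} [CommRing B]
    (θ : O →+* B) (hθ : ∀ a ∈ maximalIdeal O, θ a = 0)
    (φ : HeckePoly ℤ →+* B) (hφ : C0.KillsCoh (T.level V) φ)
    (hunit : ∀ a ∈ awayMonoid T.m, IsUnit (C0.extendHom θ φ a))
    (hm : ∀ a, restrictAway O hS₂ a ∈ T.m → C0.extendHom θ φ (awayIncl O S₂ a) = 0)
    (hU : ∀ (l : Nat.Primes), (l : ℕ) ∈ V → φ (MvPolynomial.X l) = 1)
    (hsurj : Function.Surjective (C0.extendHom θ φ)) :
    Nat.card B ≤ Nat.card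
      (C0.HeckeImage O (signedHecke hV hχ hlow) ⧸ T.residualIdealAway V hV hχ hlow hS₂) := by
  have hsign : T.signIdeal V ≤ RingHom.ker (C0.extendHom θ φ) := by
    refine Ideal.span_le.mpr ?_
    rintro _ ⟨e, he, rfl⟩
    have hp := T.prime e (hV he)
    have hdef : T.signFactor e = ((1 : HeckePoly O) - (MvPolynomial.C (T.c e) : HeckePoly O) *
        (MvPolynomial.X (⟨e, hp⟩ : Nat.Primes) : HeckePoly O)) := dif_pos hp
    rw [SetLike.mem_coe, RingHom.mem_ker, negFactor, hdef]
    have hc : θ (T.c e) = 1 := by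
      rw [← sub_eq_zero, ← map_one θ, ← map_sub]
      exact hθ _ ((T.alHyp hV).sign_one he)
    have h2 : (2 : B) = 0 := by
      rw [← map_ofNat θ 2]
      exact hθ _ T.two
    have hX : C0.extendHom θ φ
        (MvPolynomial.X (⟨e, hp⟩ : Nat.Primes) : HeckePoly O) = φ (MvPolynomial.X (⟨e, hp⟩ : Nat.Primes)) :=
      MvPolynomial.eval₂Hom_X' _ _ _
    have hC : C0.extendHom θ φ (MvPolynomial.C (T.c e) : HeckePoly O) = θ (T.c e) :=
      MvPolynomial.eval₂Hom_C _ _ _
    simp only [map_sub, map_mul, map_one, map_ofNat]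
    rw [hX, hC, hU ⟨e, hp⟩ he, hc, h2, one_mul, sub_self, sub_zero]
  let ψ : C0.HeckeImage O (signedHecke hV hχ hlow) →+* B :=
    Ideal.Quotient.lift _ (C0.extendHom θ φ) fun P hP => by
      rw [annihilator_signedHecke_eq hV hχ hlow b] at hP
      obtain ⟨u, hu, v, hv, rfl⟩ := Submodule.mem_sup.mp hP
      rw [map_add, extendHom_eq_zero_of_annihilator hV hχ θ φ hφ hunit hu,
        RingHom.mem_ker.mp (hsign hv), add_zero]
  have hψI : T.residualIdealAway V hV hχ hlow hS₂ ≤ RingHom.ker ψ := by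
    refine sup_le (Ideal.map_le_iff_le_comap.mpr fun a ha => ?_)
      (Ideal.map_le_iff_le_comap.mpr fun a ha => ?_)
    · rw [Ideal.mem_comap, RingHom.mem_ker]
      show C0.extendHom θ φ (algebraMap O (HeckePoly O) a) = 0
      rw [MvPolynomial.algebraMap_eq, C0.extendHom, MvPolynomial.eval₂Hom_C]
      exact hθ a ha
    · rw [Ideal.mem_comap, RingHom.mem_ker]
      exact hm a (Ideal.mem_comap.mp ha)
  have : Finite
      (C0.HeckeImage O (signedHecke hV hχ hlow) ⧸ T.residualIdealAway V hV hχ hlow hS₂) := by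
    have := finite_heckeImage hV hχ hlow
    set A := C0.HeckeImage O (signedHecke hV hχ hlow)
    set I := T.residualIdealAway V hV hχ hlow hS₂
    have htors : Module.IsTorsionBySet O (A ⧸ I) (maximalIdeal O : Set O) :=
      fun x ⟨a, ha⟩ => by
        obtain ⟨y, rfl⟩ := Ideal.Quotient.mk_surjective x
        show Ideal.Quotient.mk _ (a • y) = 0
        rw [Ideal.Quotient.eq_zero_iff_mem, Algebra.smul_def]
        exact Ideal.mul_mem_right _ _ (Ideal.mem_sup_left (Ideal.mem_map_of_mem _ ha))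
    have : Module.Finite O (A ⧸ I) :=
      Module.Finite.of_surjective (Ideal.Quotient.mkₐ O _).toLinearMap Ideal.Quotient.mk_surjective
    let _ := htors.module
    have : IsScalarTower O (O ⧸ maximalIdeal O) (A ⧸ I) := htors.isScalarTower
    have : Module.Finite (O ⧸ maximalIdeal O) (A ⧸ I) :=
      Module.Finite.of_restrictScalars_finite O _ _
    have : Finite (O ⧸ maximalIdeal O) := inferInstanceAs (Finite (ResidueField O))
    exact Module.finite_of_finite (O ⧸ maximalIdeal O)
  refine Nat.card_le_card_of_surjective (Ideal.Quotient.lift _ ψ fun x hx => hψI hx) fun y => ?_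
  obtain ⟨P, rfl⟩ := hsurj y
  exact ⟨Ideal.Quotient.mk _ (Ideal.Quotient.mk _ P), rfl⟩

include hV hχ hlow b in
/-- **The count for the patching**, with the ideal away from `S₂`. -/
theorem pow_four_le_card_of_doubling_away {S₂ : Set ℕ} (hS₂ : T.S ⊆ S₂)
    (Φ : HeckePoly ℤ →+* (ResidueField O)[ε])
    (hΦ : C0.KillsCoh (T.level V) Φ)
    (hunit : ∀ a ∈ awayMonoid T.m, IsUnit (C0.extendHom (resDual (O := O)) Φ a))
    (hm : ∀ a, restrictAway O hS₂ a ∈ T.m →
      C0.extendHom (resDual (O := O)) Φ (awayIncl O S₂ a) = 0)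
    (hU : ∀ (l : Nat.Primes), (l : ℕ) ∈ V → Φ (MvPolynomial.X l) = 1)
    {l₀ : Nat.Primes} (hl₀ : Φ (MvPolynomial.X l₀) = 1 + ε)
    {R₀ : Type*} [CommRing R₀] {M₀ : Type*} [AddCommGroup M₀] [Module R₀ M₀] (J : Ideal R₀)
    [Finite (M₀ ⧸ J • (⊤ : Submodule R₀ M₀))]
    (f : R₀ → C0.HeckeImage O (signedHecke hV hχ hlow))
    (hf : ∀ x ∈ J, f x ∈ T.residualIdealAway V hV hχ hlow hS₂)
    (g : M₀ →+ signedHecke hV hχ hlow ⧸ T.residualIdealAway V hV hχ hlow hS₂ •
      (⊤ : Submodule (C0.HeckeImage O (signedHecke hV hχ hlow)) (signedHecke hV hχ hlow)))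
    (hg : Function.Surjective g) (hgsmul : ∀ (x : R₀) (m : M₀), g (x • m) = f x • g m) :
    Nat.card (ResidueField O) ^ 4 ≤ Nat.card (M₀ ⧸ J • (⊤ : Submodule R₀ M₀)) := by
  obtain ⟨b₀, -⟩ := exists_basis_signedHecke_of_H hV hχ hlow b
  refine C0.pow_four_le_card b₀ _ ?_ J f hf g hg hgsmul
  have hcard : Nat.card (ResidueField O)[ε] = Nat.card (ResidueField O) ^ 2 := by
    rw [pow_two, ← Nat.card_prod]
    rfl
  rw [← hcard]
  refine card_le_quotient_residualIdealAway hV hχ hlow b hS₂ _ (fun a ha => ?_) Φ hΦ hunit hm hU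
    fun z => ?_
  · show TrivSqZeroExt.inl (residue O a) = (0 : (ResidueField O)[ε])
    rw [(residue_eq_zero_iff a).mpr ha, TrivSqZeroExt.inl_zero]
  · obtain ⟨x, hx⟩ := residue_surjective z.fst
    obtain ⟨y, hy⟩ := residue_surjective z.snd
    refine ⟨MvPolynomial.C x + MvPolynomial.C y * (MvPolynomial.X l₀ - 1), ?_⟩
    simp only [C0.extendHom, map_add, map_mul, map_sub, map_one, MvPolynomial.eval₂Hom_C,
      MvPolynomial.eval₂Hom_X', hl₀]
    refine TrivSqZeroExt.ext ?_ ?_ <;> simp [resDual, hx, hy]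

end ALSetup

end Fermat.Agent.TwoAdic
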