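import Fermat.Agent.TwoAdic.C0.FormsHom
import Fermat.Agent.TwoAdic.Modules.TWRelations
import Fermat.Agent.TwoAdic.Modules.AtkinLoc

/-!
# Raising the level of a Hecke homomorphism

A homomorphism killing the annihilator of the cohomology of level `N` gives one at level `qN`,
with `U_q` sent to a root of the Hecke polynomial: old classes suffice.
-/

set_option autoImplicit false

noncomputable section

open CongruenceSubgroup

namespace Fermat.Agent.TwoAdic.C0

open HeckeJ0 LevelRaising HeckeModule

variable {N q : ℕ} [hq : Fact q.Prime]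

local notation "ρ[" L "]" => scalarRep (levelChar (one_dvd L) (1 : (ZMod 1)ˣ →* ℤ)) ℤ

theorem rep_eq_trivRep (L : ℕ) : ρ[L] = trivRep L ℤ ℤ :=
  MonoidHom.ext fun u => LinearMap.ext fun a => by
    rw [scalarRep_apply, MonoidHom.comp_apply, MonoidHom.one_apply, one_smul]
    rfl

variable (q) in
/-- The replacement of `X_q` by a root. -/
def raiseHom {B : Type} [CommRing B] (Φ : HeckePoly ℤ →+* B) (α : B) : HeckePoly ℤ →+* B :=
  MvPolynomial.eval₂Hom (Int.castRingHom B) fun l =>
    if (l : ℕ) = q then α else Φ (MvPolynomial.X l)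

omit hq in
theorem raiseHom_X_of_ne {B : Type} [CommRing B] (Φ : HeckePoly ℤ →+* B) (α : B) {l : Nat.Primes}
    (hl : (l : ℕ) ≠ q) : raiseHom q Φ α (MvPolynomial.X l) = Φ (MvPolynomial.X l) := by
  rw [raiseHom, MvPolynomial.eval₂Hom_X', if_neg hl]

theorem raiseHom_X_self {B : Type} [CommRing B] (Φ : HeckePoly ℤ →+* B) (α : B) :
    raiseHom q Φ α (MvPolynomial.X (⟨q, hq.out⟩ : Nat.Primes)) = α := by
  exact (MvPolynomial.eval₂Hom_X' _ _ _).trans (if_pos rfl)

/-- **Raising.** If `α + β = T_q`, `αβ = q` and `(q + 1)² - T_q²` is a unit, substituting `α` for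
`X_q` kills what kills the cohomology of level `qN`. -/
theorem killsCoh_raiseHom [NeZero N] (hqN : ¬ q ∣ N) {B : Type} [CommRing B]
    (Φ : HeckePoly ℤ →+* B) (hΦ : KillsCoh N Φ) (α β : B)
    (hsum : α + β = Φ (MvPolynomial.X (⟨q, hq.out⟩ : Nat.Primes))) (hmul : α * β = (q : B))
    (hdet : IsUnit (((q : B) + 1) ^ 2 - Φ (MvPolynomial.X (⟨q, hq.out⟩ : Nat.Primes)) ^ 2)) :
    KillsCoh (q * N) (raiseHom q Φ α) := by
  intro P hP
  set Xq : HeckePoly ℤ := MvPolynomial.X (⟨q, hq.out⟩ : Nat.Primes)
  set res := resSelf ℤ (q := q) (one_dvd N) (one_dvd (q * N)) (1 : (ZMod 1)ˣ →* ℤ)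
  set w := wSelf ℤ hqN (one_dvd N) (one_dvd (q * N)) (1 : (ZMod 1)ˣ →* ℤ)
  set ψ := raiseHom q Φ α
  -- the action of `X` on old classes
  have key : ∀ Q : HeckePoly ℤ, ∃ U V U' V' : HeckePoly ℤ,
      (∀ a, Q • res a = res (U • a) + w (res (V • a))) ∧
      (∀ a, Q • w (res a) = res (U' • a) + w (res (V' • a))) ∧
      Φ U + β * Φ V = ψ Q ∧ Φ U' + β * Φ V' = β * ψ Q := by
    intro Q
    induction Q using MvPolynomial.induction_on with
    | C c =>
      refine ⟨MvPolynomial.C c, 0, 0, MvPolynomial.C c, fun a => ?_, fun a => ?_, ?_, ?_⟩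
      · rw [zero_smul, map_zero, map_zero, add_zero, ← MvPolynomial.algebraMap_eq, algebraMap_smul,
          algebraMap_smul, map_smul]
      · rw [zero_smul, map_zero, zero_add, ← MvPolynomial.algebraMap_eq, algebraMap_smul,
          algebraMap_smul, map_smul, map_smul]
      · simp [ψ, raiseHom]
      · simp [ψ, raiseHom]
    | add Q R hQ hR =>
      obtain ⟨U, V, U', V', h1, h2, h3, h4⟩ := hQ
      obtain ⟨U₂, V₂, U₂', V₂', g1, g2, g3, g4⟩ := hR
      refine ⟨U + U₂, V + V₂, U' + U₂', V' + V₂', fun a => ?_, fun a => ?_, ?_, ?_⟩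
      · rw [add_smul, h1, g1]; simp only [add_smul, map_add]; abel
      · rw [add_smul, h2, g2]; simp only [add_smul, map_add]; abel
      · simp only [map_add]; linear_combination h3 + g3
      · simp only [map_add]; linear_combination h4 + g4
    | mul_X Q l hQ =>
      obtain ⟨U, V, U', V', h1, h2, h3, h4⟩ := hQ
      obtain ⟨l, hl⟩ := l
      have : Fact l.Prime := ⟨hl⟩
      rcases eq_or_ne l q with rfl | hne
      · have hres : ∀ a, Xq • res a = res (Xq • a) - w (res a) := fun a => by
          rw [X_smul, X_smul]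
          exact heckeOp_resSelf hqN (one_dvd N) (one_dvd _) _ rfl a
        have hwres : ∀ a, Xq • w (res a) = (l : ℤ) • res a := fun a => by
          rw [X_smul]
          exact heckeOp_wSelf_resSelf hqN (one_dvd N) (one_dvd _) _ rfl a
        refine ⟨U * Xq - U', V * Xq - V', (l : ℤ) • U, (l : ℤ) • V, fun a => ?_, fun a => ?_, ?_, ?_⟩
        · show (Q * Xq) • res a = _
          rw [mul_smul, hres, smul_sub,
            h1, h2]
          simp only [sub_smul, mul_smul, map_sub]
          abel
        · show (Q * Xq) • w (res a) = _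
          rw [mul_smul, hwres,
            smul_comm, h1, smul_add, smul_assoc, smul_assoc]
          simp only [map_zsmul]
        · simp only [map_sub, map_mul, ← hsum]
          rw [show ψ (MvPolynomial.X (⟨l, hl⟩ : Nat.Primes)) = α from raiseHom_X_self Φ α]
          linear_combination (α + β) * h3 - h4
        · simp only [map_mul, zsmul_eq_mul, map_intCast]
          rw [show ψ (MvPolynomial.X (⟨l, hl⟩ : Nat.Primes)) = α from raiseHom_X_self Φ α]
          push_cast
          linear_combination (l : B) * h3 - ψ Q * hmul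
      · set Xl : HeckePoly ℤ := MvPolynomial.X (⟨l, hl⟩ : Nat.Primes) with hXl
        have hres : ∀ a, Xl • res a = res (Xl • a) := fun a => by
          rw [X_smul, X_smul]
          refine (charDegen_heckeOp (one_dvd N) _ (one_dvd _) one_ne_zero _ hl.not_dvd_one
            (fun h => ?_) a).symm
          rcases hl.dvd_mul.mp h with h | h
          · exact absurd ((Nat.prime_dvd_prime_iff_eq hl hq.out).mp h) hne
          · exact h
        have hw : ∀ v, Xl • w v = w (Xl • v) := fun v => by
          rw [X_smul, X_smul]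
          exact (alOp_heckeOp_ne _ (Finset.mem_singleton_self q) _ _ _ _ hne v).symm
        refine ⟨U * Xl, V * Xl, U' * Xl, V' * Xl, fun a => ?_, fun a => ?_, ?_, ?_⟩
        · rw [mul_smul, hres, h1, mul_smul, mul_smul]
        · rw [mul_smul, hw, hres, h2, mul_smul, mul_smul]
        · simp only [map_mul]
          rw [show ψ Xl = Φ Xl from raiseHom_X_of_ne Φ α hne, ← h3]
          ring
        · simp only [map_mul]
          rw [show ψ Xl = Φ Xl from raiseHom_X_of_ne Φ α hne]
          linear_combination Φ Xl * h4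
  obtain ⟨U, V, U', V', h1, -, h3, -⟩ := key P
  have hP' : ∀ a, res (U • a) + w (res (V • a)) = 0 := fun a => by
    rw [← h1]
    have := hP
    rw [← rep_eq_trivRep] at this
    exact this _
  have hN : ∀ R : HeckePoly ℤ, (∀ a : Coh1 ρ[N], R • a = 0) → Φ R = 0 := fun R h => hΦ R (by
    rw [rep_eq_trivRep] at h
    exact h)
  have hr1 : Φ ((q + 1 : ℤ) • U + Xq * V) = 0 := hN _ fun a => by
    have h := (traces_old hqN (one_dvd N) (one_dvd (q * N)) _ rfl (U • a) (V • a)).1
    rw [hP' a, map_zero] at h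
    rw [add_smul, mul_smul, smul_assoc, X_smul]
    exact h.symm
  have hr2 : Φ (Xq * U + (q + 1 : ℤ) • V) = 0 := hN _ fun a => by
    have h := (traces_old hqN (one_dvd N) (one_dvd (q * N)) _ rfl (U • a) (V • a)).2
    rw [hP' a, map_zero] at h
    rw [add_smul, mul_smul, smul_assoc, X_smul]
    exact h.symm
  simp only [map_add, map_mul, zsmul_eq_mul, map_intCast] at hr1 hr2
  push_cast at hr1 hr2
  have hU0 : Φ U = 0 := hdet.mul_right_eq_zero.mp (by
    linear_combination ((q : B) + 1) * hr1 - Φ Xq * hr2)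
  have hV0 : Φ V = 0 := hdet.mul_right_eq_zero.mp (by
    linear_combination ((q : B) + 1) * hr2 - Φ Xq * hr1)
  rw [← h3, hU0, hV0, mul_zero, add_zero]

end Fermat.Agent.TwoAdic.C0

end
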