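import Fermat.Agent.TwoAdic.TopNil

/-!
# Good Hecke operators are residually traces of Frobenius

The operator at a good prime is residually the trace at its Frobenius, also when the prime was
left out of the Hecke polynomials of the setup.
-/

set_option autoImplicit false
set_option linter.unusedSectionVars false

noncomputable section

open IsLocalRing

namespace Fermat.Agent.TwoAdic

open HeckeModule EigenRep Engine.TRep HeckeJ0 LevelRaising DefRing Deform Engine

attribute [local instance] ALSetup.isPrime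

local notation "Qbar" => AlgebraicClosure ℚ

variable {O : Type} [CommRing O] [IsDomain O] [IsDiscreteValuationRing O] [CharZero O]
  [IsAdicComplete (maximalIdeal O) O] [Finite (ResidueField O)] [Fact (Nat.Prime 2)]

/-- At a prime not dividing twice the level, `X_q` minus a lift of the residual trace is nilpotent
modulo the maximal ideal. -/
theorem X_sub_C_mem_nilModIdeal_of_good [CharP (ResidueField O) 2] {r : MRep (ResidueField O)}
    (hc : IsCont r) (T : ALSetup O) (hχ : T.χ = 1) (hfin : T.S.Finite) (S₀ : Finset ℕ)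
    (hmres : ∀ (l : AwayIndex T.S), ((l : Nat.Primes) : ℕ) ∉ S₀ →
      ∀ P : ValuationSubring Qbar, P.LiesOverPrime ((l : Nat.Primes) : ℕ) →
        ∀ φ : GQ, P.IsFrobeniusAt φ ((l : Nat.Primes) : ℕ) → ∀ o : O,
          residue O o = (r φ).trace → MvPolynomial.X l - MvPolynomial.C o ∈ T.m)
    {V' : Finset ℕ} (hV' : V' ⊆ T.W) (l : Nat.Primes) (hl : ¬ (l : ℕ) ∣ T.level V' * 2)
    {A₀ : ValuationSubring Qbar} (hA₀ : A₀.LiesOverPrime (l : ℕ)) {σ₀ : GQ}
    (hσ₀ : A₀.IsFrobeniusAt σ₀ (l : ℕ)) {o : O} (ho : residue O o = (r σ₀).trace) :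
    MvPolynomial.X l - MvPolynomial.C o ∈ nilModIdeal (T.H V' O) := by
  classical
  obtain ⟨S₁, hS₁⟩ := hfin.exists_finset_coe
  have : NeZero (T.level V') := ⟨T.level_ne_zero hV'⟩
  set S : Finset ℕ := S₁.erase (l : ℕ) with hS
  have hsub : (↑S : Set ℕ) ⊆ T.S := hS₁ ▸ Finset.coe_subset.mpr (Finset.erase_subset _ _)
  let res : AwayPoly O T.S →+* AwayPoly O (↑S : Set ℕ) := (restrictAway O hsub).toRingHom
  have h2' : ((2 : ℕ) : O) ∈ maximalIdeal O := by exact_mod_cast T.two
  let hes := eichlerShimuraRelations (N := T.level V') (p := 2)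
  let lat := latHom (stdInputs hes) (padicHom 2 h2') S
  have hlS : (l : ℕ) ∉ (↑S : Set ℕ) := fun h => Finset.notMem_erase _ _ (Finset.mem_coe.mp h)
  let a : AwayPoly O (↑S : Set ℕ) := MvPolynomial.X ⟨l, hlS⟩ - MvPolynomial.C o
  let I : Ideal (AwayPoly O (↑S : Set ℕ)) := RingHom.ker lat ⊔ (maximalIdeal O).map MvPolynomial.C
  -- the relations hold on the localised classes
  obtain ⟨r, hr, hrS, hr1, hre⟩ := T.eisenstein
  have : Fact r.Prime := ⟨hr⟩
  have hrV : (r : ZMod (T.level V')) = 1 := by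
    have h := congrArg (ZMod.castHom (T.level_dvd hV') (ZMod (T.level V'))) hr1
    rwa [map_natCast, map_one] at h
  have hE : eisen O r ∈ awayMonoid T.m := eisen_mem_awayMonoid _ hre
  have hχ1 : T.char V' = 1 := MonoidHom.ext fun u => by
    show T.χ _ = 1
    rw [hχ]; rfl
  have hkillI : ∀ P ∈ I, ∀ x : T.H V' O,
      awayIncl O (↑S : Set ℕ) P • x ∈ maximalIdeal O • (⊤ : Submodule O (T.H V' O)) := by
    intro P hP x
    obtain ⟨P₁, hP₁, P₂, hP₂, rfl⟩ := Submodule.mem_sup.mp hP
    rw [map_add, add_smul]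
    refine add_mem ?_ ?_
    · have h0 : awayIncl O (↑S : Set ℕ) P₁ • x = 0 := by
        induction x using LocalizedModule.induction_on with
        | _ u s =>
          rw [LocalizedModule.smul'_mk, ← LocalizedModule.zero_mk s, LocalizedModule.mk_eq]
          refine ⟨⟨_, mul_mem hE hE⟩, ?_⟩
          rw [smul_zero, smul_zero, Submonoid.smul_def, Submonoid.smul_def, smul_comm]
          rw [← mul_smul (eisen O r * eisen O r), mul_assoc,
            eisen_sq_smul_eq_zero_of_latHom hes _ S hrV _ hχ1 (RingHom.mem_ker.mp hP₁), smul_zero]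
      rw [h0]; exact zero_mem _
    · clear hP
      induction hP₂ using Submodule.span_induction generalizing x with
      | mem z hz =>
        obtain ⟨c, hc', rfl⟩ := hz
        rw [← MvPolynomial.algebraMap_eq, AlgHom.commutes, algebraMap_smul]
        exact Submodule.smul_mem_smul hc' Submodule.mem_top
      | zero => rw [map_zero, zero_smul]; exact zero_mem _
      | add y z _ _ hy hz => rw [map_add, add_smul]; exact add_mem (hy x) (hz x)
      | smul c z _ hz =>
        rw [smul_eq_mul, map_mul, mul_comm, mul_smul]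
        exact hz _
  -- some power of `a` lies in them up to a unit
  suffices key : ∃ s ∉ T.m, ∃ n, res s * a ^ n ∈ I by
    obtain ⟨s, hs, n, hn⟩ := key
    refine (mem_nilModIdeal _).mpr ⟨n, fun x => ?_⟩
    have hu := IsLocalizedModule.map_units
      (LocalizedModule.mkLinearMap (awayMonoid T.m) (Coh1 (scalarRep (T.char V') O)))
      ⟨_, mem_awayMonoid hs⟩
    rw [Module.End.isUnit_iff] at hu
    obtain ⟨y, hy⟩ := hu.2 x
    have hy' : awayIncl O T.S s • y = x := hy
    have ha : awayIncl O (↑S : Set ℕ) a = MvPolynomial.X l - MvPolynomial.C o := by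
      rw [map_sub, awayIncl_X, ← MvPolynomial.algebraMap_eq, AlgHom.commutes]
      rfl
    have h := hkillI _ hn y
    rw [map_mul, show awayIncl O (↑S : Set ℕ) (res s) = awayIncl O T.S s from
      awayIncl_restrictAway hsub s, map_pow, ha, mul_comm, mul_smul, hy'] at h
    exact h
  by_contra hcon
  push Not at hcon
  let M : Submonoid (AwayPoly O (↑S : Set ℕ)) :=
    (T.m.primeCompl.map res) ⊔ Submonoid.powers a
  have hdis : Disjoint (I : Set (AwayPoly O (↑S : Set ℕ))) M := by
    refine Set.disjoint_left.mpr fun z hzI hzM => ?_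
    obtain ⟨_, ⟨s, hs, rfl⟩, _, ⟨n, rfl⟩, rfl⟩ := Submonoid.mem_sup.mp hzM
    exact hcon s hs n hzI
  obtain ⟨Q, hQ, hIQ, hQM⟩ := Ideal.exists_le_prime_disjoint I M hdis
  have hres : Q.comap res ≤ T.m := fun s hs => by
    by_contra hs'
    exact Set.disjoint_left.mp hQM (Ideal.mem_comap.mp hs)
      (Submonoid.mem_sup_left ⟨s, hs', rfl⟩)
  -- the quotient is finite, so everything is maximal
  have hfin : Finite (AwayPoly O (↑S : Set ℕ) ⧸ Q) := by
    let k := ResidueField O
    let q : AwayPoly O (↑S : Set ℕ) →ₐ[O] AwayPoly O (↑S : Set ℕ) ⧸ Q := Ideal.Quotient.mkₐ O Q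
    let ψ := AlgHom.liftOfSurjective lat (latHom_surjective _ _ _) q fun P hP =>
      RingHom.mem_ker.mpr (Ideal.Quotient.eq_zero_iff_mem.mpr (hIQ (Ideal.mem_sup_left hP)))
    have hψ : Function.Surjective ψ := fun z => by
      obtain ⟨P, rfl⟩ := Ideal.Quotient.mk_surjective z
      exact ⟨lat P, AlgHom.liftOfSurjective_apply _ _ _ _ _⟩
    have : Module.Finite O (AwayPoly O (↑S : Set ℕ) ⧸ Q) :=
      Module.Finite.of_surjective ψ.toLinearMap hψ
    obtain ⟨d, w, hw⟩ := Module.Finite.exists_fin (R := O) (M := AwayPoly O (↑S : Set ℕ) ⧸ Q)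
    let cmb : (Fin d → k) → AwayPoly O (↑S : Set ℕ) ⧸ Q := fun c =>
      ∑ i, (Function.surjInv (residue_surjective (R := O)) (c i)) • w i
    refine Finite.of_surjective cmb fun z => ?_
    obtain ⟨c, rfl⟩ := (Submodule.mem_span_range_iff_exists_fun O).mp (hw ▸ Submodule.mem_top (x := z))
    refine ⟨fun i => residue O (c i), Finset.sum_congr rfl fun i _ => ?_⟩
    obtain ⟨x, hx⟩ : ∃ x, Function.surjInv (residue_surjective (R := O)) (residue O (c i)) = x :=
      ⟨_, rfl⟩
    rw [hx, ← sub_eq_zero, ← sub_smul, Algebra.smul_def]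
    have hm : x - c i ∈ maximalIdeal O := by
      rw [← residue_eq_zero_iff, map_sub, ← hx, Function.surjInv_eq residue_surjective, sub_self]
    have h0 : algebraMap O (AwayPoly O (↑S : Set ℕ) ⧸ Q) (x - c i) = 0 :=
      Ideal.Quotient.eq_zero_iff_mem.mpr (hIQ (Ideal.mem_sup_right (Ideal.mem_map_of_mem _ hm)))
    rw [h0, zero_mul]
  have hQmax : Q.IsMaximal :=
    Ideal.Quotient.maximal_of_isField _ (Finite.isField_of_domain _)
  have : (Q.comap res).IsPrime := Ideal.IsPrime.comap _
  have hcm : (Q.comap res).IsMaximal := by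
    have : Finite (AwayPoly O T.S ⧸ Q.comap res) :=
      Finite.of_injective (Ideal.quotientMap Q res le_rfl) Ideal.quotientMap_injective
    exact Ideal.Quotient.maximal_of_isField _ (Finite.isField_of_domain _)
  have heq : Q.comap res = T.m :=
    hcm.eq_of_le T.isPrime.ne_top hres
  refine Set.disjoint_left.mp hQM ?_ (Submonoid.mem_sup_right (Submonoid.mem_powers a))
  refine X_sub_C_mem_of_latKernel h2' hc S (S₀ ∪ S₁) Q
    (fun P hP => hIQ (Ideal.mem_sup_left (RingHom.mem_ker.mpr hP)))
    (fun x hx => hIQ (Ideal.mem_sup_right (Ideal.mem_map_of_mem _ hx)))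
    (fun i hi A hA σ hσ x hx => ?_) ⟨l, hlS⟩ hl hA₀ hσ₀ ho
  simp only [Finset.mem_union, not_or] at hi
  have hiS : ((i : Nat.Primes) : ℕ) ∉ T.S := fun h =>
    hi.2 (Finset.mem_coe.mp ((Set.ext_iff.mp hS₁ _).mpr h))
  have hm := hmres ⟨i.1, hiS⟩ hi.1 A hA σ hσ x hx
  rw [← heq, Ideal.mem_comap] at hm
  simpa [res, restrictAway] using hm

end Fermat.Agent.TwoAdic

end
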