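import Fermat.Agent.TwoAdic.C0.Hecke
import Fermat.Agent.TwoAdic.Modules.LocCompare

/-!
# `U_q` is unipotent when the face without `q` vanishes

`U_q ≡ 1` modulo nilpotents on localised cohomology when the face without `q` vanishes.
-/

set_option autoImplicit false

open CongruenceSubgroup IsLocalRing

namespace Fermat.Agent.TwoAdic

open HeckeJ0 LevelRaising HeckeModule

/-- With the face at `q` vanishing, `U_q² = 1`; so `U_q - 1` is nilpotent modulo the maximal
ideal in residue characteristic two. -/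
theorem sub_one_mem_nilModIdeal_of_lower {O : Type} [CommRing O] [IsLocalRing O]
    (h2 : (2 : O) ∈ maximalIdeal O) {S : Set ℕ} (m : Ideal (AwayPoly O S)) [m.IsPrime]
    {q N L M : ℕ} [hq : Fact q.Prime] (hqS : q ∈ S) (hqN : ¬ q ∣ N) (hL : L = q * N) (hMN : M ∣ N)
    (hML : M ∣ L) {χ : (ZMod M)ˣ →* O} (hχ : χ = 1) (hqM : q.Coprime M)
    (hsub : Subsingleton (CohLoc (awayMonoid m) (scalarRep (levelChar hMN χ) O))) :
    (MvPolynomial.X (⟨q, hq.out⟩ : Nat.Primes) : HeckePoly O) - 1 ∈
      nilModIdeal (CohLoc (awayMonoid m) (scalarRep (levelChar hML χ) O)) := by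
  set E := CohLoc (awayMonoid m) (scalarRep (levelChar hML χ) O) with hE
  set Xq : HeckePoly O := MvPolynomial.X (⟨q, hq.out⟩ : Nat.Primes) with hXq
  have hq0 : q ≠ 0 := hq.out.ne_zero
  have hW : IsALPrimes L {q} := fun e he => by
    rw [Finset.mem_singleton] at he
    subst he
    refine ⟨hq.out, hL ▸ dvd_mul_right _ _, fun h => hqN ?_⟩
    rw [hL] at h
    exact (Nat.mul_dvd_mul_iff_left hq.out.pos).mp h
  have hdeg : 1 * N ∣ L := by rw [one_mul, hL]; exact dvd_mul_left _ _
  let w := alOp O hW (Finset.mem_singleton_self q) hML χ hqM 1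
  -- the degeneracy images vanish
  let res := locLift (awayMonoid m) (charDegen O hMN χ hML one_ne_zero hdeg)
    ((isAway_awayMonoid m).commute _ fun ℓ hℓ hℓS u =>
      charDegen_heckeOp hMN χ hML one_ne_zero hdeg hℓ.out.not_dvd_one (fun hd => by
        rw [hL] at hd
        refine (hℓ.out.dvd_mul.mp hd).resolve_left fun h => hℓS ?_
        rwa [(Nat.prime_dvd_prime_iff_eq hℓ.out hq.out).mp h]) u)
  have hX : ∀ (u : Coh1 (scalarRep (levelChar hML χ) O)) (s : awayMonoid m),
      Xq • (LocalizedModule.mk u s : E) = -LocalizedModule.mk (w u) s := by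
    intro u s
    obtain ⟨v, hv⟩ := exists_heckeOp_add_alOp hqN hL hMN hML χ hχ hW (Finset.mem_singleton_self q)
      hqM hdeg u
    rw [hXq, LocalizedModule.smul'_mk, X_smul]
    refine eq_neg_of_add_eq_zero_left ?_
    have h0 : res (LocalizedModule.mk v s) = 0 := by
      rw [Subsingleton.elim (LocalizedModule.mk v s : CohLoc (awayMonoid m) _) 0, map_zero]
    rw [mk_add_mk_same, hv]
    exact (locLift_mk _ _ _ _).symm.trans h0
  have hsq : ∀ x : E, Xq • Xq • x = x := fun x => by
    induction x using LocalizedModule.induction_on with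
    | _ u s =>
      rw [hX, smul_neg, hX, neg_neg,
        alOp_alOp hW (Finset.mem_singleton_self q) hML χ hqM 1
          (by rw [hχ, MonoidHom.one_apply, one_mul]) u]
  refine (mem_nilModIdeal _).mpr ⟨2, fun x => ?_⟩
  have e : (Xq - 1) ^ 2 • x = (2 : O) • (x - Xq • x) := by
    rw [pow_two, mul_smul, sub_smul Xq 1 x, one_smul, smul_sub, sub_smul, one_smul, sub_smul,
      one_smul, hsq, two_smul]
    abel
  rw [e]
  exact Submodule.smul_mem_smul h2 Submodule.mem_top

end Fermat.Agent.TwoAdic
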