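import Fermat.Agent.TwoAdic.C0.Generators
import Fermat.Agent.TwoAdic.C0.LowerUnit
import Fermat.Agent.TwoAdic.C0.GoodNil
import Fermat.Agent.TwoAdic.Route.BaseSetup
import Fermat.Agent.TwoAdic.Pairing.MultOneBridge
import Fermat.Agent.TwoAdic.Final.Vanish

/-!
# Freeness at the base setup

The base setup: lower vanishing at the primes of `D`, and the localised cohomology of level `ℓ₀ ∏
R ∏ (D ∖ ℓ₀)` is free of rank two over its local Hecke algebra.
-/

set_option autoImplicit false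

noncomputable section

open IsLocalRing GaloisRep Fermat.Agent.DefRing
open Fermat.Agent.HeckeModule Fermat.Agent.HeckeJ0 Fermat.Agent.LevelRaising

namespace Fermat.Agent.TwoAdic.TopDown

attribute [local instance] ALSetup.isPrime Module.quotientAnnihilator Ideal.Quotient.field

variable {O : Type} [CommRing O] [IsDomain O] [IsDiscreteValuationRing O]
  [IsAdicComplete (maximalIdeal O) O] [CharZero O] [Finite (ResidueField O)]
  [CharP (ResidueField O) 2] {E : LiftData} {r : MRep (ResidueField O)} {Sm R X Sx : Finset ℕ}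
  {t : ℕ → O}

/-- The hypotheses shared by the statements about the base setup. -/
structure IsBase (E : LiftData) (r : MRep (ResidueField O)) (Sm R Sx : Finset ℕ) (t : ℕ → O)
    (T : ALSetup O) : Prop where
  dihedral : IsDihedralResidual E.D r
  cont : IsCont r
  modular : IsResiduallyModular E.D r Sm
  prime : ∀ q ∈ R, q.Prime
  odd : ∀ q ∈ R, q ≠ 2
  prime_dvd : ∀ q ∈ R, ¬ q ∣ E.D
  core : T.core = E.ℓ₀ * prodOf R
  M_eq : T.M = 1
  χ_eq : T.χ = 1
  S_eq : T.S = ↑Sx
  two_notMem : 2 ∉ Sx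
  disjoint : Disjoint Sx R
  D_mem : E.D.primeFactors ⊆ Sx
  W_mem : E.D.primeFactors.erase E.ℓ₀ ⊆ T.W
  eigen : ∀ (l : AwayIndex T.S) (o : O), MvPolynomial.X l - MvPolynomial.C o ∈ T.m ↔
    baseEigen r R t ((l : Nat.Primes) : ℕ) = residue O o

variable {T : ALSetup O}

set_option linter.unusedSectionVars false in
/-- The primes of the level lie in `D` or in the core primes. -/
theorem IsBase.dvd_level (h : IsBase E r Sm R Sx t T) {V : Finset ℕ}
    (hV : V ⊆ E.D.primeFactors) {p : ℕ} (hp : p.Prime) (hd : p ∣ T.level V) :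
    p ∈ E.D.primeFactors ∨ p ∈ R := by
  have hD0 : E.D ≠ 0 := by have := E.mod_eight; omega
  rw [ALSetup.level, h.core] at hd
  rcases hp.dvd_mul.mp hd with hd | hd
  · rcases hp.dvd_mul.mp hd with hd | hd
    · exact Or.inl (((Nat.prime_dvd_prime_iff_eq hp E.prime_ℓ₀).mp hd) ▸
        Nat.mem_primeFactors.mpr ⟨E.prime_ℓ₀, E.dvd_ℓ₀, hD0⟩)
    · obtain ⟨q, hq, hpq⟩ := ((Nat.prime_iff.mp hp).dvd_finsetProd_iff _).mp hd
      exact Or.inr ((Nat.prime_dvd_prime_iff_eq hp (h.prime q hq)).mp hpq ▸ hq)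
  · obtain ⟨q, hq, hpq⟩ := ((Nat.prime_iff.mp hp).dvd_finsetProd_iff _).mp hd
    exact Or.inl ((Nat.prime_dvd_prime_iff_eq hp
      (Nat.prime_of_mem_primeFactors (hV hq))).mp hpq ▸ hV hq)

/-- A level without a prime of `D` carries nothing. -/
theorem IsBase.subsingleton (h : IsBase E r Sm R Sx t T) {v : ℕ} (hv : v ∈ E.D.primeFactors)
    {N M : ℕ} (hN : ¬ v ∣ N) (hMN : M ∣ N) (χ : (ZMod M)ˣ →* O) (hχ : χ = 1) :
    Subsingleton (CohLoc (awayMonoid T.m) (scalarRep (levelChar hMN χ) O)) := by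
  have hD8 := E.mod_eight
  have hD : 0 < E.D := by omega
  have hvp := Nat.prime_of_mem_primeFactors hv
  have hvD := Nat.dvd_of_mem_primeFactors hv
  have hv2 : v ≠ 2 := fun e => by subst e; omega
  have : NeZero N := ⟨fun e => hN (e ▸ dvd_zero v)⟩
  have : Fact (Nat.Prime 2) := ⟨Nat.prime_two⟩
  obtain ⟨P, hP⟩ := Frobenius.exists_liesOverPrime (AlgebraicClosure ℚ) hvp
  obtain ⟨τ, hτ⟩ := TameInertia.exists_tameGenerator Nat.prime_two hvp (Ne.symm hv2) hP
  rw [show levelChar hMN χ = 1 by subst hχ; exact MonoidHom.one_comp _]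
  exact Final.subsingleton_cohLoc_of_ramified h.dihedral h.cont hD (h.S_eq ▸ Sx.finite_toSet) T.m
    (fun o ho => T.le (Ideal.mem_map_of_mem _ ho)) (Sm ∪ R ∪ {2})
    (fun l hl A hA σ hσ o ho => base_mem h.modular h.eigen _ subset_rfl l hl A hA σ hσ o ho)
    hvp hv2 hN ⟨P, hP, τ, hτ.1,
      (Selmer.inertia_image h.dihedral E.squarefree (Nat.odd_iff.mpr (by omega)) hvp hvD hP
        hτ).1.2⟩

/-- Lower vanishing at the primes of `D`. -/
theorem IsBase.lowerVanish (h : IsBase E r Sm R Sx t T) :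
    T.LowerVanish (E.D.primeFactors.erase E.ℓ₀) := fun _ he =>
  h.subsingleton (Finset.mem_of_mem_erase he)
    (T.not_dvd_level ((Finset.erase_subset _ _).trans h.W_mem) (h.W_mem he)
      (Finset.notMem_erase _ _)) (T.dvd_level _) T.χ h.χ_eq

/-- `U_v ≡ 1` modulo nilpotents at the primes of `D`. -/
theorem IsBase.sub_one_mem (h : IsBase E r Sm R Sx t T) (l : Nat.Primes)
    (hl : (l : ℕ) ∈ E.D.primeFactors) :
    (MvPolynomial.X l : HeckePoly O) - 1 ∈
      nilModIdeal (T.H (E.D.primeFactors.erase E.ℓ₀) O) := by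
  have hD8 := E.mod_eight
  have : Fact (l : ℕ).Prime := ⟨l.2⟩
  obtain ⟨l, hlp⟩ := l
  change l ∈ E.D.primeFactors at hl
  change Fact l.Prime at this
  set V := E.D.primeFactors.erase E.ℓ₀ with hVdef
  have hlS : l ∈ T.S := by rw [h.S_eq]; exact Finset.mem_coe.mpr (h.D_mem hl)
  have hqM : l.Coprime T.M := by rw [h.M_eq]; exact Nat.coprime_one_right l
  have h2 : (2 : O) ∈ maximalIdeal O := T.two
  obtain ⟨N, hL, hN⟩ : ∃ N, T.level V = l * N ∧ ¬ l ∣ N := by
    by_cases he : l = E.ℓ₀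
    · refine ⟨prodOf R * prodOf V, by rw [ALSetup.level, h.core, he, mul_assoc], fun hd => ?_⟩
      rcases hlp.dvd_mul.mp hd with hd | hd
      · obtain ⟨q, hq, hpq⟩ := ((Nat.prime_iff.mp hlp).dvd_finsetProd_iff _).mp hd
        exact h.prime_dvd q hq
          ((Nat.prime_dvd_prime_iff_eq hlp (h.prime q hq)).mp hpq ▸ Nat.dvd_of_mem_primeFactors hl)
      · obtain ⟨q, hq, hpq⟩ := ((Nat.prime_iff.mp hlp).dvd_finsetProd_iff _).mp hd
        exact (Finset.mem_erase.mp hq).1
          (((Nat.prime_dvd_prime_iff_eq hlp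
            (Nat.prime_of_mem_primeFactors (Finset.mem_of_mem_erase hq))).mp hpq).symm.trans he)
    · have hlV : l ∈ V := Finset.mem_erase.mpr ⟨he, hl⟩
      refine ⟨T.level (V.erase l), ?_, T.not_dvd_level ((Finset.erase_subset _ _).trans h.W_mem)
        (h.W_mem hlV) (Finset.notMem_erase _ _)⟩
      rw [← T.level_insert (Finset.notMem_erase l V), Finset.insert_erase hlV]
  have hMN : T.M ∣ N := by rw [h.M_eq]; exact one_dvd N
  exact sub_one_mem_nilModIdeal_of_lower h2 T.m (q := l) (L := T.level V) hlS hN hL hMN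
    (T.dvd_level V) h.χ_eq hqM (h.subsingleton hl hN hMN T.χ h.χ_eq)

/-- **`H` of level `D R` is free of rank two** over its local Hecke algebra. -/
theorem IsBase.exists_basis (h : IsBase E r Sm R Sx t T)
    [Nontrivial (T.H (E.D.primeFactors.erase E.ℓ₀) O)] :
    ∃ _ : IsLocalRing (T.HeckeH (E.D.primeFactors.erase E.ℓ₀)),
      Nonempty (Module.Basis (Fin 2) (T.HeckeH (E.D.primeFactors.erase E.ℓ₀))
        (T.H (E.D.primeFactors.erase E.ℓ₀) O)) := by
  classical
  have hD8 := E.mod_eight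
  have : Fact (Nat.Prime 2) := ⟨Nat.prime_two⟩
  set V := E.D.primeFactors.erase E.ℓ₀ with hVdef
  have hV : V ⊆ T.W := h.W_mem
  have : NeZero (T.level V) := ⟨T.level_ne_zero hV⟩
  set S₀ : Finset ℕ := Sm ∪ R ∪ {2} with hS₀
  have hmres := base_mem h.modular h.eigen S₀ subset_rfl
  -- the residual values
  choose P σ hP hσ using fun l : Nat.Primes =>
    Frobenius.exists_liesOverPrime_and_isFrobeniusAt_qbar (q := (l : ℕ)) l.2
  let e : Nat.Primes → O ⧸ maximalIdeal O := fun l =>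
    if (l : ℕ) ∈ E.D.primeFactors then 1
    else if (l : ℕ) ∈ Sx then (r (σ l)).trace else baseEigen r R t l
  let ψ : HeckePoly (O ⧸ maximalIdeal O) →ₐ[O ⧸ maximalIdeal O] O ⧸ maximalIdeal O :=
    MvPolynomial.aeval e
  have hψX : ∀ l, ψ (MvPolynomial.X l) = e l := fun l => MvPolynomial.aeval_X e l
  have hnotR : ∀ l : ℕ, l ∈ Sx → l ∉ R := fun l hl => Finset.disjoint_left.mp h.disjoint hl
  have h2D : 2 ∉ E.D.primeFactors := fun hm => by
    have := Nat.dvd_of_mem_primeFactors hm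
    omega
  have hnil : ∀ (l : Nat.Primes) (o : O), Ideal.Quotient.mk (maximalIdeal O) o =
      ψ (MvPolynomial.X l) →
      MvPolynomial.X l - MvPolynomial.C o ∈ nilModIdeal (T.H V O) := by
    intro l o ho
    replace ho := ho.trans (hψX l)
    by_cases hlD : (l : ℕ) ∈ E.D.primeFactors
    · replace ho : Ideal.Quotient.mk (maximalIdeal O) o = 1 := ho.trans (if_pos hlD)
      have h1 : (1 : O) - o ∈ maximalIdeal O :=
        Ideal.Quotient.eq.mp (by rw [map_one]; exact ho.symm)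
      have h0 := add_mem (h.sub_one_mem l hlD) (C_mem_nilModIdeal (T.H V O) h1)
      rwa [map_sub, map_one, sub_add_sub_cancel] at h0
    replace ho := ho.trans (if_neg hlD)
    by_cases hlS : (l : ℕ) ∈ Sx
    · replace ho : residue O o = (r (σ l)).trace := ho.trans (if_pos hlS)
      refine X_sub_C_mem_nilModIdeal_of_good h.cont T h.χ_eq (h.S_eq ▸ Sx.finite_toSet) S₀ hmres hV
        l (fun hd => ?_) (hP l) (hσ l) ho
      rcases l.2.dvd_mul.mp hd with hd | hd
      · rcases h.dvd_level (Finset.erase_subset _ _) l.2 hd with hd | hd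
        · exact hlD hd
        · exact hnotR _ hlS hd
      · exact h.two_notMem ((Nat.prime_dvd_prime_iff_eq l.2 Nat.prime_two).mp hd ▸ hlS)
    · replace ho : residue O o = baseEigen r R t l := ho.trans (if_neg hlS)
      have hl : (l : ℕ) ∉ T.S := by rw [h.S_eq]; exact fun hm => hlS (Finset.mem_coe.mp hm)
      have := (T.free_H hV).1
      have h0 := awayIncl_mem_nilModIdeal (ρ := scalarRep (T.char V) O) T.m
        ((h.eigen ⟨l, hl⟩ o).mpr ho.symm)
      rwa [map_sub, awayIncl_X, ← MvPolynomial.algebraMap_eq, AlgHom.commutes,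
        MvPolynomial.algebraMap_eq] at h0
  -- multiplicity one
  obtain ⟨ℓ₁, hℓ₁, h11, hE⟩ := T.nonEisenstein hV
  have : Fact ℓ₁.Prime := ⟨hℓ₁⟩
  have : CharP (O ⧸ maximalIdeal O) 2 := inferInstanceAs (CharP (ResidueField O) 2)
  have hψE : ψ (eisen (O ⧸ maximalIdeal O) ℓ₁) ≠ 0 := fun h0 => by
    have hmem := ALSetup.sub_C_mem_nilModIdeal (T := T) (V := V) ψ hnil (eisen O ℓ₁) 0
      (by rw [map_zero, Engine.TRep.eisen_map, h0])
    rw [map_zero, sub_zero] at hmem
    exact ALSetup.not_bijective_of_mem_nilModIdeal hV hmem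
      (bijective_smul_of_mem (ρ := scalarRep (T.char V) O) hE)
  have hcast : ∀ f : ∀ {n : ℕ}, ZMod n → ZMod n, (∀ {a b : ℕ} (hd : a ∣ b) (z : ZMod b),
      ZMod.castHom hd (ZMod a) (f z) = f (ZMod.castHom hd (ZMod a) z)) →
      (∀ z : ZMod T.core, f z ≠ 0) → ∀ z : ZMod (T.level V), f z ≠ 0 := fun f hf hc z hz => by
    have := congrArg (ZMod.castHom (dvd_mul_right T.core (prodOf V)) (ZMod T.core)) hz
    rw [hf, map_zero] at this
    exact hc _ this
  have h2M : ¬ 2 ∣ T.level V := fun hd =>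
    (h.dvd_level (Finset.erase_subset _ _) Nat.prime_two hd).elim h2D fun hm => h.odd 2 hm rfl
  have hψ2 := Pairing.finrank_cotangent_le_two_dihedral (k := O ⧸ maximalIdeal O) h2M
    (hcast (fun z => z ^ 2 + 1) (fun _ _ => by simp only [map_add, map_pow, map_one]) T.elliptic₄)
    (hcast (fun z => z ^ 2 + z + 1) (fun _ _ => by simp only [map_add, map_pow, map_one])
      T.elliptic₃) h11 ψ hψE h.dihedral h.cont hD8 (Sm ∪ R ∪ Sx)
    ((hψX _).trans (((if_neg h2D).trans (if_neg h.two_notMem)).trans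
      ((if_neg fun hm => h.odd 2 hm rfl).trans (if_pos rfl))))
    (fun l hl hlS hld A hA φ hφ => by
      simp only [Finset.mem_union, not_or] at hlS
      have hlD : l ∉ E.D.primeFactors := fun hm => hlS.2 (h.D_mem hm)
      exact (hψX _).trans (((if_neg hlD).trans (if_neg hlS.2)).trans ((if_neg hlS.1.2).trans
        ((residualEigen_of_ne r fun he => hld (Dvd.intro _ (congrArg (· * T.level V) (show l = 2 from he)))).trans
          (residualTrace_eq h.modular hl hlS.1.1 hA hφ)))))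
  obtain ⟨hloc, g, hg⟩ := ALSetup.exists_two_generators_H hV ψ hnil hψ2
  exact ⟨hloc, ALSetup.exists_basis_H hV h.χ_eq ⟨g, by rw [hg, top_sup_eq]⟩⟩

end Fermat.Agent.TwoAdic.TopDown

end
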