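import Fermat.Agent.TwoAdic.C0.Transfer
import Fermat.Agent.TwoAdic.Modules.RelaxIso
import Fermat.Agent.TwoAdic.Pairing.TwoGen
import Mathlib.LinearAlgebra.Charpoly.Basic

/-!
# Two generators for the localised cohomology

All of the localised cohomology is generated by two elements over its full Hecke algebra, which is
local, when every Hecke operator is residually a scalar.
-/

set_option autoImplicit false

open CongruenceSubgroup IsLocalRing

namespace Fermat.Agent.TwoAdic

open HeckeJ0 LevelRaising HeckeModule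

attribute [local instance] ALSetup.isPrime Module.quotientAnnihilator Ideal.Quotient.field

namespace ALSetup

variable {O : Type} [CommRing O] [IsLocalRing O] [IsNoetherianRing O]
  [IsAdicComplete (maximalIdeal O) O] {T : ALSetup O} {V : Finset ℕ} (hV : V ⊆ T.W)

variable (ψ : HeckePoly (O ⧸ maximalIdeal O) →ₐ[(O ⧸ maximalIdeal O)] (O ⧸ maximalIdeal O))
  (hnil : ∀ (l : Nat.Primes) (r : O), Ideal.Quotient.mk (maximalIdeal O) r = ψ (MvPolynomial.X l) →
    MvPolynomial.X l - MvPolynomial.C r ∈ nilModIdeal (T.H V O))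

omit [IsNoetherianRing O] [IsAdicComplete (maximalIdeal O) O] in
include hnil in
/-- Every operator is its residual value modulo nilpotents. -/
theorem sub_C_mem_nilModIdeal (P : HeckePoly O) :
    ∀ r : O, Ideal.Quotient.mk (maximalIdeal O) r =
      ψ (MvPolynomial.map (Ideal.Quotient.mk (maximalIdeal O)) P) →
      P - MvPolynomial.C r ∈ nilModIdeal (T.H V O) := by
  induction P using MvPolynomial.induction_on with
  | C c =>
    intro r hr
    rw [MvPolynomial.map_C, ← MvPolynomial.algebraMap_eq, AlgHom.commutes, Algebra.algebraMap_self,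
      RingHom.id_apply] at hr
    rw [← map_sub]
    exact C_mem_nilModIdeal _ (Ideal.Quotient.eq.mp hr.symm)
  | add a b ha hb =>
    intro r hr
    obtain ⟨ra, hra⟩ := Ideal.Quotient.mk_surjective
      (ψ (MvPolynomial.map (Ideal.Quotient.mk (maximalIdeal O)) a))
    have h := add_mem (ha ra hra)
      (hb (r - ra) (by rw [map_sub, hr, hra, map_add, map_add, add_sub_cancel_left]))
    rw [map_sub] at h
    convert h using 1
    ring
  | mul_X a l ha =>
    intro r hr
    obtain ⟨ra, hra⟩ := Ideal.Quotient.mk_surjective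
      (ψ (MvPolynomial.map (Ideal.Quotient.mk (maximalIdeal O)) a))
    obtain ⟨rl, hrl⟩ := Ideal.Quotient.mk_surjective (ψ (MvPolynomial.X l))
    have h0 : ra * rl - r ∈ maximalIdeal O := Ideal.Quotient.eq.mp (by
      rw [hr, map_mul, map_mul, MvPolynomial.map_X, map_mul, ← hra, ← hrl])
    have h := add_mem (add_mem (Ideal.mul_mem_right (MvPolynomial.X l) _ (ha ra hra))
      (Ideal.mul_mem_left _ (MvPolynomial.C ra) (hnil l rl hrl)))
      (C_mem_nilModIdeal (T.H V O) h0)
    rw [map_sub, map_mul] at h
    convert h using 1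
    ring

include hV in
/-- An operator which is nilpotent modulo the maximal ideal is not bijective. -/
theorem not_bijective_of_mem_nilModIdeal [Nontrivial (T.H V O)] {P : HeckePoly O}
    (hP : P ∈ nilModIdeal (T.H V O)) : ¬ Function.Bijective fun x : T.H V O => P • x := by
  intro hb
  obtain ⟨n, hn⟩ := (mem_nilModIdeal _).mp hP
  have := (T.free_H hV).1
  have hbn : Function.Surjective fun x : T.H V O => P ^ n • x := by
    clear hn
    induction n with
    | zero => exact fun y => ⟨y, by simp only [pow_zero, one_smul]⟩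
    | succ n ih =>
      intro y
      obtain ⟨z, hz⟩ := ih y
      obtain ⟨x, hx⟩ := hb.2 z
      exact ⟨x, by simp only at hx hz ⊢; rw [pow_succ, mul_smul, hx, hz]⟩
  have htop : (⊤ : Submodule O (T.H V O)) ≤ maximalIdeal O • ⊤ := fun y _ => by
    obtain ⟨x, rfl⟩ := hbn y
    exact hn x
  exact top_ne_bot (Submodule.eq_bot_of_le_smul_of_le_jacobson_bot (maximalIdeal O)
    (⊤ : Submodule O (T.H V O)) Module.Finite.fg_top htop
    (IsLocalRing.maximalIdeal_le_jacobson ⊥))

include hV in
/-- A bijective operator is invertible in the Hecke algebra. -/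
theorem isUnit_mk_of_bijective {P : HeckePoly O}
    (hb : Function.Bijective fun x : T.H V O => P • x) :
    IsUnit (Ideal.Quotient.mk (Module.annihilator (HeckePoly O) (T.H V O)) P : T.HeckeH V) := by
  have := (T.free_H hV).1
  have := (T.free_H hV).2
  let L := Algebra.lsmul O O (T.H V O) (A := HeckePoly O)
  have hdet : IsUnit (LinearMap.det (L P)) :=
    (LinearMap.isUnit_iff_isUnit_det _).mp ((Module.End.isUnit_iff _).mpr hb)
  have h0 : IsUnit ((L P).charpoly.coeff 0) := by
    rw [LinearMap.det_eq_sign_charpoly_coeff] at hdet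
    exact isUnit_of_mul_isUnit_right hdet
  have hker : Polynomial.aeval P (L P).charpoly ∈ Module.annihilator (HeckePoly O) (T.H V O) := by
    refine Module.mem_annihilator.mpr fun x => ?_
    show L (Polynomial.aeval P (L P).charpoly) x = 0
    rw [← Polynomial.aeval_algHom_apply, LinearMap.aeval_self_charpoly, LinearMap.zero_apply]
  have h1 := Ideal.Quotient.eq_zero_iff_mem.mpr hker
  rw [← Polynomial.X_mul_divX_add (L P).charpoly, map_add, map_mul, Polynomial.aeval_X,
    Polynomial.aeval_C, map_add, map_mul, add_eq_zero_iff_eq_neg] at h1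
  refine isUnit_of_mul_isUnit_left (y := Ideal.Quotient.mk _
    (Polynomial.aeval P (L P).charpoly.divX)) ?_
  rw [h1, IsUnit.neg_iff]
  exact (h0.map (algebraMap O (HeckePoly O))).map _

include hV hnil in
/-- Outside the kernel of `ψ` the operators are bijective. -/
theorem bijective_smul_of_apply_ne_zero {P : HeckePoly O}
    (hP : ψ (MvPolynomial.map (Ideal.Quotient.mk (maximalIdeal O)) P) ≠ 0) :
    Function.Bijective fun x : T.H V O => P • x := by
  have := (T.free_H hV).1
  obtain ⟨r, hr⟩ := Ideal.Quotient.mk_surjective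
    (ψ (MvPolynomial.map (Ideal.Quotient.mk (maximalIdeal O)) P))
  have hu : IsUnit r := notMem_maximalIdeal.mp fun hm =>
    hP (hr.symm.trans (Ideal.Quotient.eq_zero_iff_mem.mpr hm))
  refine bijective_smul_of_congr (T.H V O) (b := MvPolynomial.C r) ?_
    (sub_C_mem_nilModIdeal ψ hnil P r hr)
  have h := (Module.End.isUnit_iff _).mp (hu.map (algebraMap O (Module.End O (T.H V O))))
  convert h using 1
  funext x
  rw [← MvPolynomial.algebraMap_eq, algebraMap_smul, Module.algebraMap_end_apply]

include hV hnil in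
/-- **The full Hecke algebra is local.** -/
theorem isLocalRing_heckeH [Nontrivial (T.H V O)] : IsLocalRing (T.HeckeH V) := by
  let f : HeckePoly O → (O ⧸ maximalIdeal O) := fun P => ψ (MvPolynomial.map (Ideal.Quotient.mk (maximalIdeal O)) P)
  have hiff : ∀ P : HeckePoly O,
      IsUnit (Ideal.Quotient.mk (Module.annihilator (HeckePoly O) (T.H V O)) P : T.HeckeH V) →
        f P ≠ 0 := by
    intro P hu h0
    refine not_bijective_of_mem_nilModIdeal hV (P := P) ?_ ?_
    · simpa using sub_C_mem_nilModIdeal ψ hnil P 0 (by rw [map_zero]; exact h0.symm)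
    · obtain ⟨u, hu⟩ := hu
      obtain ⟨Q, hQ⟩ := Ideal.Quotient.mk_surjective (↑u⁻¹ : T.HeckeH V)
      have h1 : ∀ x : T.H V O, (Q * P) • x = x := fun x => by
        have : (Ideal.Quotient.mk _ (Q * P) : T.HeckeH V) = 1 := by
          rw [map_mul, hQ, ← hu, Units.inv_mul]
        show (Ideal.Quotient.mk _ (Q * P) : T.HeckeH V) • x = x
        rw [this, one_smul]
      exact Function.bijective_iff_has_inverse.mpr ⟨fun x => Q • x,
        fun x => by simp only; rw [smul_smul, h1],
        fun x => by simp only; rw [smul_smul, mul_comm, h1]⟩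
  have : Nontrivial (T.HeckeH V) := nontrivial_of_ne 1 0 fun h => by
    obtain ⟨x, hx⟩ := exists_ne (0 : T.H V O)
    exact hx (by rw [← one_smul (T.HeckeH V) x, h, zero_smul])
  refine IsLocalRing.of_nonunits_add fun a b ha hb => ?_
  obtain ⟨P, rfl⟩ := Ideal.Quotient.mk_surjective a
  obtain ⟨Q, rfl⟩ := Ideal.Quotient.mk_surjective b
  have key : ∀ R : HeckePoly O,
      Ideal.Quotient.mk (Module.annihilator (HeckePoly O) (T.H V O)) R ∈ nonunits (T.HeckeH V) →
        f R = 0 := fun R hR => by
    by_contra hne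
    exact hR (isUnit_mk_of_bijective hV (bijective_smul_of_apply_ne_zero hV ψ hnil hne))
  intro hu
  rw [← map_add] at hu
  refine hiff _ hu ?_
  have h1 := key P ha
  have h2 := key Q hb
  simp only [f] at h1 h2 ⊢
  rw [map_add, map_add, h1, h2, add_zero]

include hV hnil in
/-- **Two generators of all of the localised cohomology**, given multiplicity one. -/
theorem exists_two_generators_H [NeZero (T.level V)] [Nontrivial (T.H V O)]
    (hψ2 : Module.finrank (O ⧸ maximalIdeal O)
      (Coh1 (trivRep (T.level V) (O ⧸ maximalIdeal O) (O ⧸ maximalIdeal O)) ⧸ Pairing.cotangentKer (N := T.level V) ψ) ≤ 2) :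
    ∃ _ : IsLocalRing (T.HeckeH V),
      ∃ g : Fin 2 → T.H V O, Submodule.span (T.HeckeH V) (Set.range g) = ⊤ := by
  have := (T.free_H hV).1
  have hloc := isLocalRing_heckeH hV ψ hnil
  refine ⟨hloc, ?_⟩
  have : Module.Finite (T.HeckeH V) (T.H V O) :=
    Module.Finite.of_restrictScalars_finite O _ _
  have hnu : ∀ P : HeckePoly O, ψ (MvPolynomial.map (Ideal.Quotient.mk (maximalIdeal O)) P) = 0 →
      ¬ IsUnit (Ideal.Quotient.mk (Module.annihilator (HeckePoly O) (T.H V O)) P : T.HeckeH V) := by
    intro P h0 hu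
    obtain ⟨u, hu⟩ := hu
    obtain ⟨Q, hQ⟩ := Ideal.Quotient.mk_surjective (↑u⁻¹ : T.HeckeH V)
    refine not_bijective_of_mem_nilModIdeal hV (P := Q * P) (Ideal.mul_mem_left _ Q ?_) ?_
    · simpa using sub_C_mem_nilModIdeal ψ hnil P 0 (by rw [map_zero]; exact h0.symm)
    · have h1 : (Ideal.Quotient.mk _ (Q * P) : T.HeckeH V) = 1 := by
        rw [map_mul, hQ, ← hu, Units.inv_mul]
      convert Function.bijective_id using 1
      funext x
      show (Ideal.Quotient.mk _ (Q * P) : T.HeckeH V) • x = x
      rw [h1, one_smul]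
  have : IsLocalHom (algebraMap O (T.HeckeH V)) := ⟨fun o ho => by
    by_contra hno
    refine hnu (MvPolynomial.C o) ?_ ho
    rw [MvPolynomial.map_C, Ideal.Quotient.eq_zero_iff_mem.mpr
      ((mem_maximalIdeal o).mpr hno), map_zero, map_zero]⟩
  refine Pairing.exists_two_generators_local (χ := T.char V) (S := awayMonoid T.m)
    (fun u => T.char_one _) (T.exact hV) ψ hψ2 ?_ LinearMap.id (fun x => ⟨x, rfl⟩)
    (Ideal.Quotient.mk (Module.annihilator (HeckePoly O) (T.H V O))) (fun _ _ => rfl)
    fun a r hr => ?_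
  · intro s hs h0
    exact not_bijective_of_mem_nilModIdeal hV
      (by simpa using sub_C_mem_nilModIdeal ψ hnil s 0 (by rw [map_zero]; exact h0.symm))
      (bijective_smul_of_mem (ρ := scalarRep (T.char V) O) hs)
  · rw [show algebraMap O (T.HeckeH V) r =
      Ideal.Quotient.mk _ (MvPolynomial.C r : HeckePoly O) from rfl, ← map_sub]
    refine (mem_maximalIdeal _).mpr (hnu _ ?_)
    rw [map_sub, map_sub, ← hr, MvPolynomial.map_C, ← MvPolynomial.algebraMap_eq, AlgHom.commutes,
      Algebra.algebraMap_self, RingHom.id_apply, sub_self]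

end ALSetup

end Fermat.Agent.TwoAdic
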