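import Fermat.Agent.TwoAdic.Modules.TWRelations
import Fermat.Agent.TwoAdic.Modules.NewQuotient

/-!
# The signed part as a module over all Hecke polynomials

The signed part at a level with vanishing lower levels: `U_e = -w_e`, so it is a module over all
Hecke polynomials, and it equals every new quotient.
-/

set_option autoImplicit false

open CongruenceSubgroup IsLocalRing

namespace Fermat.Agent.TwoAdic

open HeckeJ0 LevelRaising HeckeModule

section Level

universe uO uA

variable {O : Type uO} [CommRing O] {A : Type uA} [AddCommGroup A] [Module O A] {N L M q : ℕ}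
  [hq : Fact q.Prime] {W : Finset ℕ}

/-- The operator scaled by `c` is `c` times the operator scaled by `1`. -/
theorem alOp_eq_smul {e : ℕ} (hW : IsALPrimes L W) (he : e ∈ W) (hM : M ∣ L) (χ : (ZMod M)ˣ →* O)
    (heM : e.Coprime M) (c : O) (u : Coh1 (scalarRep (levelChar hM χ) A)) :
    alOp A hW he hM χ heM c u = c • alOp A hW he hM χ heM 1 u := by
  obtain ⟨z, rfl⟩ := toCoh_surjective _ u
  rw [alOp_toCoh, alOp_toCoh, ← map_smul]
  refine congrArg _ (Subtype.ext (funext fun γ => ?_))
  show (alData A hW he hM χ heM c).raw z.1 γ = c • (alData A hW he hM χ heM 1).raw z.1 γ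
  rw [alData_raw, alData_raw, one_smul]

/-- `U_q + w_q` comes from the level without `q`. -/
theorem exists_heckeOp_add_alOp (hqN : ¬ q ∣ N) (hL : L = q * N) (hM : M ∣ N) (hML : M ∣ L)
    (χ : (ZMod M)ˣ →* O) (hχ : χ = 1) (hW : IsALPrimes L W) (he : q ∈ W) (heM : q.Coprime M)
    (h : 1 * N ∣ L) (u : Coh1 (scalarRep (levelChar hML χ) A)) :
    ∃ v, heckeOp _ q u + alOp A hW he hML χ heM 1 u
      = charDegen A hM χ hML one_ne_zero h v := by
  subst hL
  exact ⟨_, heckeOp_add_wSelf hqN hM hML χ hχ u⟩

end Level

attribute [local instance] ALSetup.isPrime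

namespace ALSetup

variable {O : Type} [CommRing O] [IsLocalRing O] (T : ALSetup O)

/-- The class group of the face at each member vanishes. -/
def LowerVanish (V : Finset ℕ) : Prop := ∀ e ∈ V, Subsingleton (T.H (V.erase e) O)

variable {T} {V : Finset ℕ} (hV : V ⊆ T.W) (hχ : T.χ = 1) (hlow : T.LowerVanish V)

include hV hχ in
lemma c_mul_c {e : ℕ} (he : e ∈ V) : T.c e * T.c e = 1 := by
  rw [T.sq e (hV he) (T.coprime_M (hV he)), hχ, MonoidHom.one_apply]

include hχ hlow in
/-- `U_e = -c_e w_e` when the face at `e` vanishes. -/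
theorem X_smul_eq {e : ℕ} (he : e ∈ V) [hp : Fact e.Prime] (x : T.H V O) :
    (MvPolynomial.X (⟨e, hp.out⟩ : Nat.Primes) : HeckePoly O) • x
      = -(T.c e • T.w O hV e x) := by
  have hsub := hlow e he
  induction x using LocalizedModule.induction_on with
  | _ u s =>
    obtain ⟨v, hv⟩ := exists_heckeOp_add_alOp (N := T.level (V.erase e))
      (T.not_dvd_level ((V.erase_subset e).trans hV) (hV he) (Finset.notMem_erase e V))
      (by rw [← T.level_insert (Finset.notMem_erase e V), Finset.insert_erase he])
      (T.dvd_level _) (T.dvd_level V) T.χ hχ (T.isAL hV) he (T.coprime_M (hV he))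
      (T.one_mul_level_dvd (V.erase_subset e)) u
    have h0 : LocalizedModule.mk (heckeOp _ e u) s + LocalizedModule.mk
        (alOp O (T.isAL hV) he (T.dvd_level V) T.χ (T.coprime_M (hV he)) 1 u) s = (0 : T.H V O) := by
      rw [mk_add_mk_same, hv, ← T.res_mk hV (V.erase_subset e),
        Subsingleton.elim (LocalizedModule.mk v s : T.H (V.erase e) O) 0, map_zero]
    rw [LocalizedModule.smul'_mk, X_smul, T.w_mk hV he, alOp_eq_smul (c := T.c e),
      ← LocalizedModule.smul'_mk, smul_smul, c_mul_c hV hχ he, one_smul]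
    exact eq_neg_of_add_eq_zero_left h0

include hχ hlow in
/-- The involutions are linear over all Hecke polynomials. -/
theorem w_hecke_smul {e : ℕ} (he : e ∈ V) (P : HeckePoly O) (x : T.H V O) :
    T.w O hV e (P • x) = P • T.w O hV e x := by
  induction P using MvPolynomial.induction_on generalizing x with
  | C a => rw [← MvPolynomial.algebraMap_eq, algebraMap_smul, algebraMap_smul, map_smul]
  | add P Q hP hQ => rw [add_smul, add_smul, map_add, hP, hQ]
  | mul_X P l hP =>
    rw [mul_smul, mul_smul, hP]
    congr 1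
    obtain ⟨l, hl⟩ := l
    have : Fact l.Prime := ⟨hl⟩
    rcases eq_or_ne l e with heq | hne
    · subst heq
      rw [X_smul_eq hV hχ hlow he, X_smul_eq hV hχ hlow he, map_neg, map_smul]
    · induction x using LocalizedModule.induction_on with
      | _ u s =>
        rw [LocalizedModule.smul'_mk, T.w_mk hV he, T.w_mk hV he, LocalizedModule.smul'_mk,
          X_smul, X_smul, alOp_heckeOp_ne _ he _ _ _ _ hne]

/-- The signed part as a module over all Hecke polynomials. -/
noncomputable def signedHecke : Submodule (HeckePoly O) (T.H V O) where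
  carrier := {x | x ∈ T.signed O hV}
  add_mem' := (T.signed O hV).add_mem
  zero_mem' := (T.signed O hV).zero_mem
  smul_mem' P x hx := T.mem_signed.mpr fun e he => by
    rw [w_hecke_smul hV hχ hlow he, T.mem_signed.mp hx e he]

lemma mem_signedHecke {x : T.H V O} :
    x ∈ signedHecke hV hχ hlow ↔ x ∈ T.signed O hV := Iff.rfl

/-- The signed part, read with all Hecke operators. -/
noncomputable def signedHeckeEquiv : signedHecke hV hχ hlow ≃ₗ[O] T.signed O hV where
  toFun x := ⟨x.1, x.2⟩
  invFun x := ⟨x.1, x.2⟩
  map_add' _ _ := rfl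
  map_smul' _ _ := rfl

include hlow in
/-- With vanishing faces there are no old classes. -/
theorem oldSpace_eq_bot (B : Finset ℕ) : T.oldSpace O hV B = ⊥ :=
  eq_bot_iff.mpr <| iSup_le fun b => iSup_le fun hb => iSup_le fun _ => by
    rintro _ ⟨x, rfl⟩
    have := hlow b hb
    rw [Submodule.mem_bot, Subsingleton.elim x 0, map_zero]

/-- With vanishing faces every new quotient is the signed part. -/
noncomputable def newQuotEquiv (B : Finset ℕ) : T.NewQuot O hV B ≃ₗ[O] T.signed O hV :=
  Submodule.quotEquivOfEqBot _ (oldSpace_eq_bot hV hlow B)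

end ALSetup

end Fermat.Agent.TwoAdic
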