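import Fermat.Agent.Mazur.Conj.Main
import Fermat.Agent.HeckeEigen.Eigenform
import Fermat.Agent.HeckeModule.Away
import Mathlib.LinearAlgebra.Matrix.Rank
import Mathlib.LinearAlgebra.Matrix.NonsingularInverse
import Mathlib.Algebra.MvPolynomial.Funext
import Mathlib.RingTheory.Adjoin.Basic

/-!
# The period lattice is co-free of rank two over the Hecke algebra

Two integral vectors `x`, `y` such that `(P, Q) ↦ x P + y Q` is bijective from two copies of the
algebra of Hecke matrices onto the row vectors, over every field of characteristic zero: over `ℂ`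
take the coordinates of `(f, g) ↦ a₁(f)` and `(f, g) ↦ a₁(g)`, and non-vanishing of a determinant
with integral coefficients gives integral vectors.
-/

set_option autoImplicit false

noncomputable section

open CongruenceSubgroup
open scoped MatrixGroups Matrix

namespace Fermat.Agent.TwoAdic.C0

open HeckeJ0 HeckeModule Mazur

variable (N : ℕ) [NeZero N]

/-- The Hecke matrices with entries in `R`. -/
def heckeMatR (R : Type*) [CommRing R] (l : Nat.Primes) : Matrix (Fin (rk N)) (Fin (rk N)) R :=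
  (heckeMatAt N l).map (Int.cast : ℤ → R)

theorem heckeMatR_comm (R : Type*) [CommRing R] (l m : Nat.Primes) :
    Commute (heckeMatR N R l) (heckeMatR N R m) := by
  show _ * _ = _ * _
  rw [heckeMatR, heckeMatR, ← map_intCast_mul, ← map_intCast_mul, heckeMatAt_comm]

instance matAlgComm (R : Type*) [CommRing R] :
    IsMulCommutative (Algebra.adjoin R (Set.range (heckeMatR N R))) :=
  Algebra.isMulCommutative_adjoin R fun _ ha _ hb => by
    obtain ⟨l, rfl⟩ := ha
    obtain ⟨m, rfl⟩ := hb
    exact heckeMatR_comm N R l m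

open scoped IsMulCommutative in
/-- Hecke polynomials as matrices on the lattice. -/
def matHom (R : Type*) [CommRing R] :
    HeckePoly R →ₐ[R] Matrix (Fin (rk N)) (Fin (rk N)) R :=
  (Algebra.adjoin R (Set.range (heckeMatR N R))).val.comp
    (MvPolynomial.aeval fun l => ⟨heckeMatR N R l, Algebra.subset_adjoin ⟨l, rfl⟩⟩)

theorem matHom_X (R : Type*) [CommRing R] (l : Nat.Primes) :
    matHom N R (MvPolynomial.X l) = heckeMatR N R l := by
  open scoped IsMulCommutative in
  rw [matHom, AlgHom.comp_apply, MvPolynomial.aeval_X]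
  rfl

theorem matHom_map {R R' : Type*} [CommRing R] [CommRing R'] (θ : R →+* R') (P : HeckePoly R) :
    matHom N R' (MvPolynomial.map θ P) = (matHom N R P).map θ := by
  induction P using MvPolynomial.induction_on with
  | C a =>
    rw [MvPolynomial.map_C, ← MvPolynomial.algebraMap_eq, ← MvPolynomial.algebraMap_eq,
      AlgHom.commutes, AlgHom.commutes]
    ext i j
    simp only [Matrix.algebraMap_matrix_apply, Matrix.map_apply, Algebra.algebraMap_self,
      RingHom.id_apply]
    split_ifs <;> simp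
  | add P Q hP hQ => rw [map_add, map_add, map_add, hP, hQ, Matrix.map_add _ (map_add θ)]
  | mul_X P l hP =>
    rw [map_mul, map_mul, map_mul, MvPolynomial.map_X, matHom_X, matHom_X, hP, Matrix.map_mul]
    congr 1
    ext i j
    simp [heckeMatR]

/-- The algebra of Hecke matrices over `R`, as a submodule. -/
def matSpace (R : Type*) [CommRing R] : Submodule R (Matrix (Fin (rk N)) (Fin (rk N)) R) :=
  LinearMap.range (matHom N R).toLinearMap

/-- The Hecke matrices over `R` are spanned by the integral ones. -/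
theorem matSpace_eq_span (R : Type*) [CommRing R] : matSpace N R = Submodule.span R
    (Set.range fun P : HeckePoly ℤ => (matHom N ℤ P).map (Int.cast : ℤ → R)) := by
  have key : ∀ P : HeckePoly ℤ,
      (matHom N ℤ P).map (Int.cast : ℤ → R) = matHom N R (MvPolynomial.map (Int.castRingHom R) P) :=
    fun P => (matHom_map N (Int.castRingHom R) P).symm
  refine le_antisymm ?_ (Submodule.span_le.mpr ?_)
  · rintro _ ⟨P, rfl⟩
    induction P using MvPolynomial.induction_on' with
    | monomial m a =>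
      show matHom N R (MvPolynomial.monomial m a) ∈ (_ : Submodule R _)
      rw [show MvPolynomial.monomial m a
        = a • MvPolynomial.map (Int.castRingHom R) (MvPolynomial.monomial m (1 : ℤ)) by
          rw [MvPolynomial.map_monomial, map_one, MvPolynomial.smul_monomial, smul_eq_mul, mul_one],
        map_smul, ← key]
      exact Submodule.smul_mem _ _ (Submodule.subset_span ⟨_, rfl⟩)
    | add P Q hP hQ => rw [map_add]; exact add_mem hP hQ
  · rintro _ ⟨P, rfl⟩
    exact ⟨MvPolynomial.map (Int.castRingHom R) P, (key P).symm⟩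

/-- `(P, Q) ↦ x P + y Q`. -/
def pairMap {R : Type*} [CommRing R] (x y : Fin (rk N) → R) :
    matSpace N R × matSpace N R →ₗ[R] (Fin (rk N) → R) where
  toFun P := x ᵥ* (P.1 : Matrix _ _ R) + y ᵥ* (P.2 : Matrix _ _ R)
  map_add' P Q := by
    simp only [Prod.fst_add, Prod.snd_add, Submodule.coe_add, Matrix.vecMul_add]
    abel
  map_smul' r P := by
    simp only [Prod.smul_fst, Prod.smul_snd, Submodule.coe_smul, Matrix.vecMul_smul, smul_add,
      RingHom.id_apply]

theorem pairMap_apply {R : Type*} [CommRing R] (x y : Fin (rk N) → R)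
    (P : matSpace N R × matSpace N R) :
    pairMap N x y P = x ᵥ* (P.1 : Matrix _ _ R) + y ᵥ* (P.2 : Matrix _ _ R) := rfl

section Complex

variable {N}

/-- A matrix acts through an endomorphism of forms on both sorts of periods. -/
def Compat (P : Matrix (Fin (rk N)) (Fin (rk N)) ℂ) (p : Module.End ℂ (CuspForm (Gamma0 N) 2)) :
    Prop :=
  ∀ f g, P *ᵥ perPair N (f, g) = perPair N (p f, p g)

theorem Compat.add {P Q : Matrix (Fin (rk N)) (Fin (rk N)) ℂ} {p q} (hP : Compat P p)
    (hQ : Compat Q q) : Compat (P + Q) (p + q) := fun f g => by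
  rw [Matrix.add_mulVec, hP, hQ, ← map_add]
  rfl

theorem Compat.smul {P : Matrix (Fin (rk N)) (Fin (rk N)) ℂ} {p} (hP : Compat P p) (c : ℂ) :
    Compat (c • P) (c • p) := fun f g => by
  rw [Matrix.smul_mulVec, hP, ← map_smul]
  rfl

theorem Compat.mul {P Q : Matrix (Fin (rk N)) (Fin (rk N)) ℂ} {p q} (hP : Compat P p)
    (hQ : Compat Q q) : Compat (P * Q) (p * q) := fun f g => by
  rw [← Matrix.mulVec_mulVec, hQ, hP]
  rfl

theorem compat_one : Compat (N := N) 1 1 := fun f g => by
  rw [Matrix.one_mulVec]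
  rfl

theorem Compat.unique {P : Matrix (Fin (rk N)) (Fin (rk N)) ℂ} {p q} (hp : Compat P p)
    (hq : Compat P q) : p = q := LinearMap.ext fun f => by
  have h := (hp f 0).symm.trans (hq f 0)
  exact congrArg Prod.fst (perPair_injective h)

/-- Every complex matrix of the Hecke space acts through an endomorphism of forms. -/
theorem exists_compat {P : Matrix (Fin (rk N)) (Fin (rk N)) ℂ} (hP : P ∈ matSpace N ℂ) :
    ∃ p, Compat P p := by
  obtain ⟨P, rfl⟩ := hP
  show ∃ p, Compat (matHom N ℂ P) p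
  induction P using MvPolynomial.induction_on with
  | C a =>
    exact ⟨a • 1, by
      rw [← MvPolynomial.algebraMap_eq, AlgHom.commutes, Algebra.algebraMap_eq_smul_one]
      exact compat_one.smul a⟩
  | add P Q hP hQ =>
    obtain ⟨p, hp⟩ := hP
    obtain ⟨q, hq⟩ := hQ
    exact ⟨p + q, by rw [map_add]; exact hp.add hq⟩
  | mul_X P l hP =>
    obtain ⟨p, hp⟩ := hP
    obtain ⟨q, hq, hs⟩ := exists_formsEnd (N := N)
      (P := heckeMatAt N l) (Algebra.subset_adjoin ⟨l, rfl⟩)
    exact ⟨p * q, by rw [map_mul, matHom_X]; exact hp.mul fun f g => map_perPair hq hs f g⟩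

/-- Every element of the Hecke algebra on forms comes from a Hecke matrix. -/
theorem exists_compat_of_mem {t : Module.End ℂ (CuspForm (Gamma0 N) 2)}
    (ht : t ∈ CuspForm.heckeAlgebra N 2 ∅) :
    ∃ P ∈ matSpace N ℂ, Compat P t := by
  suffices h : ∃ P : HeckePoly ℂ, Compat (matHom N ℂ P) t by
    obtain ⟨P, hP⟩ := h; exact ⟨_, ⟨P, rfl⟩, hP⟩
  have hgen : ∀ l : Nat.Primes, Compat (heckeMatR N ℂ l) (EigenRep.formsOp N l) := fun l f g => by
    refine map_perPair (fun f => perMap_formsOp N l f) (fun f => ?_) f g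
    unfold EigenRep.formsOp
    split_ifs with h
    · exact EichlerShimura.starForm_heckeULin l.2 h f
    · exact EichlerShimura.starForm_heckeTLin l.2 h f
  have hT : ∀ {ℓ : ℕ} (hℓ : ℓ.Prime) (h : ¬ ℓ ∣ N),
      EigenRep.formsOp N ⟨ℓ, hℓ⟩ = CuspForm.heckeTLin 2 hℓ h := fun _ h => dif_neg h
  have hU : ∀ {ℓ : ℕ} (hℓ : ℓ.Prime) (h : ℓ ∣ N),
      EigenRep.formsOp N ⟨ℓ, hℓ⟩ = CuspForm.heckeULin 2 h := fun _ h => dif_pos h
  induction ht using Algebra.adjoin_induction with
  | mem x hx =>
    rcases hx with ⟨ℓ, hℓ, hℓN, -, rfl⟩ | ⟨q, hqN, hq, -, rfl⟩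
    · refine ⟨MvPolynomial.X ⟨ℓ, hℓ⟩, ?_⟩
      have h := hgen ⟨ℓ, hℓ⟩
      rw [hT hℓ hℓN] at h
      exact (matHom_X N ℂ ⟨ℓ, hℓ⟩).symm ▸ h
    · refine ⟨MvPolynomial.X ⟨q, hq⟩, ?_⟩
      have h := hgen ⟨q, hq⟩
      rw [hU hq hqN] at h
      exact (matHom_X N ℂ ⟨q, hq⟩).symm ▸ h
  | algebraMap r =>
    refine ⟨(r : ℂ) • 1, ?_⟩
    rw [map_smul, map_one]
    have h := (compat_one (N := N)).smul (r : ℂ)
    rw [Int.cast_smul_eq_zsmul ℂ r (1 : Module.End ℂ (CuspForm (Gamma0 N) 2))] at h
    rw [Algebra.algebraMap_eq_smul_one]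
    exact h
  | add x y _ _ hx hy =>
    obtain ⟨P, hP⟩ := hx
    obtain ⟨Q, hQ⟩ := hy
    exact ⟨P + Q, by rw [map_add]; exact hP.add hQ⟩
  | mul x y _ _ hx hy =>
    obtain ⟨P, hP⟩ := hx
    obtain ⟨Q, hQ⟩ := hy
    exact ⟨P * Q, by rw [map_mul]; exact hP.mul hQ⟩

/-- The Hecke matrices commute. -/
theorem matSpace_commute {R : Type*} [CommRing R] {P Q : Matrix (Fin (rk N)) (Fin (rk N)) R}
    (hP : P ∈ matSpace N R) (hQ : Q ∈ matSpace N R) : P * Q = Q * P := by
  obtain ⟨a, rfl⟩ := hP
  obtain ⟨b, rfl⟩ := hQ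
  show matHom N R a * matHom N R b = matHom N R b * matHom N R a
  rw [← map_mul, ← map_mul, mul_comm]

/-- `a₁ (p f) = 0` for all `f` forces `p = 0`, for `p` commuting with the Hecke algebra. -/
theorem eq_zero_of_qCoeff_one {p : Module.End ℂ (CuspForm (Gamma0 N) 2)}
    (hc : ∀ t ∈ CuspForm.heckeAlgebra N 2 ∅, t * p = p * t)
    (h : ∀ f, HeckeEigen.qCoeffLin N 2 1 (p f) = 0) : p = 0 :=
  LinearMap.ext fun f => HeckeEigen.eq_zero_of_forall_pairOne (by norm_num) fun t => by
    rw [HeckeEigen.pairOne_apply, ← Module.End.mul_apply, hc _ t.2, Module.End.mul_apply, h]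

variable (N)

/-- Over `ℂ` the space `ℂ ^ rk` is free of rank two over the Hecke matrices. -/
theorem exists_complex : ∃ x y : Fin (rk N) → ℂ, Function.Bijective (pairMap N x y) := by
  classical
  have hfd := HeckeEigen.finiteDimensional_cuspForm N 2
  have hsurj := perPair_surjective (rk_le_two_mul_finrank' N)
  let e := LinearEquiv.ofBijective (perPair N) ⟨perPair_injective, hsurj⟩
  let a1 := HeckeEigen.qCoeffLin N 2 1
  have hvec : ∀ L : (Fin (rk N) → ℂ) →ₗ[ℂ] ℂ, ∃ x : Fin (rk N) → ℂ, ∀ v, x ⬝ᵥ v = L v := fun L =>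
    ⟨fun i => L (Pi.single i 1), fun v => by
      conv_rhs => rw [pi_eq_sum_univ' v, map_sum]
      simp only [map_smul, smul_eq_mul, dotProduct]
      exact Finset.sum_congr rfl fun i _ => mul_comm _ _⟩
  obtain ⟨x, hx⟩ := hvec (a1 ∘ₗ LinearMap.fst ℂ _ _ ∘ₗ e.symm.toLinearMap)
  obtain ⟨y, hy⟩ := hvec (a1 ∘ₗ LinearMap.snd ℂ _ _ ∘ₗ e.symm.toLinearMap)
  have hdot : ∀ (P : matSpace N ℂ × matSpace N ℂ) (p q : Module.End ℂ (CuspForm (Gamma0 N) 2)),
      Compat (P.1 : Matrix _ _ ℂ) p → Compat (P.2 : Matrix _ _ ℂ) q → ∀ f g,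
      pairMap N x y P ⬝ᵥ perPair N (f, g) = a1 (p f) + a1 (q g) := fun P p q hp hq f g => by
    have he : ∀ u, e.symm (perPair N u) = u := fun u => e.symm_apply_apply u
    rw [pairMap_apply, add_dotProduct, ← Matrix.dotProduct_mulVec, ← Matrix.dotProduct_mulVec,
      hp, hq, hx, hy]
    simp only [LinearMap.comp_apply, LinearEquiv.coe_coe, he, LinearMap.fst_apply,
      LinearMap.snd_apply]
  refine ⟨x, y, (injective_iff_map_eq_zero _).mpr fun P hP => ?_, ?_⟩
  · obtain ⟨p, hp⟩ := exists_compat P.1.2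
    obtain ⟨q, hq⟩ := exists_compat P.2.2
    have hz : ∀ f g, a1 (p f) + a1 (q g) = 0 := fun f g => by
      rw [← hdot P p q hp hq f g, hP, zero_dotProduct]
    have hzero : ∀ (R : matSpace N ℂ) r, Compat (R : Matrix _ _ ℂ) r →
        (∀ f, a1 (r f) = 0) → R = 0 := fun R r hr h => by
      have hr0 : r = 0 := eq_zero_of_qCoeff_one (fun t ht => by
        obtain ⟨T, hT, hTt⟩ := exists_compat_of_mem ht
        exact (hTt.mul hr).unique (by rw [matSpace_commute hT R.2]; exact hr.mul hTt)) h
      refine Subtype.ext (Matrix.ext_of_mulVec_single fun i => ?_)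
      obtain ⟨u, hu⟩ := hsurj (Pi.single i 1)
      rw [← hu, ZeroMemClass.coe_zero, Matrix.zero_mulVec, hr u.1 u.2, hr0]
      exact map_zero (perPair N)
    exact Prod.ext
      (hzero _ p hp fun f => by simpa using hz f 0) (hzero _ q hq fun g => by simpa using hz 0 g)
  · rw [← LinearMap.range_eq_top]
    by_contra hne
    obtain ⟨φ, hφ0, hφ⟩ := Submodule.exists_le_ker_of_lt_top _ (lt_top_iff_ne_top.mpr hne)
    obtain ⟨v, hv⟩ := hvec φ
    obtain ⟨⟨f, g⟩, rfl⟩ := hsurj v
    refine hφ0 (LinearMap.ext fun w => ?_)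
    suffices h : f = 0 ∧ g = 0 by
      rw [← hv, h.1, h.2, Prod.mk_zero_zero, map_zero, zero_dotProduct, LinearMap.zero_apply]
    have key : ∀ P, pairMap N x y P ⬝ᵥ perPair N (f, g) = 0 := fun P => by
      rw [dotProduct_comm, hv]
      exact hφ ⟨P, rfl⟩
    constructor
    · refine HeckeEigen.eq_zero_of_forall_pairOne (by norm_num) fun t => ?_
      obtain ⟨T, hT, hTt⟩ := exists_compat_of_mem t.2
      have := key (⟨T, hT⟩, 0)
      rw [hdot _ _ 0 hTt (fun a b => by simp [Prod.mk_zero_zero]) f g] at this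
      simpa [HeckeEigen.pairOne_apply, a1] using this
    · refine HeckeEigen.eq_zero_of_forall_pairOne (by norm_num) fun t => ?_
      obtain ⟨T, hT, hTt⟩ := exists_compat_of_mem t.2
      have := key (0, ⟨T, hT⟩)
      rw [hdot _ 0 _ (fun a b => by simp [Prod.mk_zero_zero]) hTt f g] at this
      simpa [HeckeEigen.pairOne_apply, a1] using this

end Complex

/-- **The row vectors are free of rank two over the Hecke matrices**, with integral generators. -/
theorem exists_integral : ∃ x y : Fin (rk N) → ℤ, ∀ (K : Type) [Field K] [CharZero K],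
    Function.Bijective
      (pairMap N (fun i => (x i : K)) (fun i => (y i : K))) := by
  classical
  obtain ⟨x₀, y₀, hxy⟩ := exists_complex N
  -- a basis of the complex algebra made of integral matrices
  obtain ⟨b, hbs, hspan, hli⟩ := exists_linearIndependent ℂ
    (Set.range fun P : HeckePoly ℤ => (matHom N ℤ P).map (Int.cast : ℤ → ℂ))
  rw [← matSpace_eq_span] at hspan
  have hfinb : Finite b := hli.finite
  have := Fintype.ofFinite b
  choose P hP using fun i : b => hbs i.2
  set M : b → Matrix (Fin (rk N)) (Fin (rk N)) ℤ := fun i => matHom N ℤ (P i) with hM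
  -- the vectors attached to a pair of coefficient vectors
  let vecs : ∀ (R : Type) [CommRing R], (Fin (rk N) → R) → (Fin (rk N) → R) →
      b ⊕ b → Fin (rk N) → R := fun R _ x y =>
    Sum.elim (fun i => x ᵥ* (M i).map (Int.cast : ℤ → R))
      (fun i => y ᵥ* (M i).map (Int.cast : ℤ → R))
  have hmem : ∀ (K : Type) [Field K], ∀ i, (M i).map (Int.cast : ℤ → K) ∈ matSpace N K :=
    fun K _ i => by
      rw [matSpace_eq_span]; exact Submodule.subset_span ⟨P i, rfl⟩
  -- over `ℂ` they form a basis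
  let B : Module.Basis b ℂ (matSpace N ℂ) :=
    (Module.Basis.span hli).map (LinearEquiv.ofEq _ _ (by
      rw [Subtype.range_coe_subtype, Set.ofPred_mem_eq]; exact hspan))
  have hB : ∀ i, ((B i : matSpace N ℂ) : Matrix _ _ ℂ) = (M i).map (Int.cast : ℤ → ℂ) := fun i => by
    rw [Module.Basis.map_apply, LinearEquiv.coe_ofEq_apply, Module.Basis.span_apply]
    exact (hP i).symm
  let E := LinearEquiv.ofBijective (pairMap N x₀ y₀) hxy
  let Bv : Module.Basis (b ⊕ b) ℂ (Fin (rk N) → ℂ) := (B.prod B).map E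
  have hBv : ⇑Bv = vecs ℂ x₀ y₀ := funext fun i => by
    show pairMap N x₀ y₀ ((B.prod B) i) = _
    rw [pairMap_apply]
    rcases i with i | i
    · rw [Module.Basis.prod_apply_inl_fst, Module.Basis.prod_apply_inl_snd, hB]
      simp [vecs]
    · rw [Module.Basis.prod_apply_inr_fst, Module.Basis.prod_apply_inr_snd, hB]
      simp [vecs]
  let ε : b ⊕ b ≃ Fin (rk N) := Bv.indexEquiv (Pi.basisFun ℂ (Fin (rk N)))
  let mat : ∀ (R : Type) [CommRing R], (Fin (rk N) → R) → (Fin (rk N) → R) →
      Matrix (Fin (rk N)) (Fin (rk N)) R := fun R _ x y => Matrix.of fun k => vecs R x y (ε.symm k)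
  have hrows : ∀ (K : Type) [Field K] (x y : Fin (rk N) → K),
      LinearIndependent K (vecs K x y) ↔ (mat K x y).det ≠ 0 := fun K _ x y => by
    rw [← isUnit_iff_ne_zero, ← Matrix.isUnit_iff_isUnit_det,
      ← Matrix.linearIndependent_rows_iff_isUnit]
    exact (linearIndependent_equiv ε.symm).symm
  have h0 : (mat ℂ x₀ y₀).det ≠ 0 := (hrows ℂ x₀ y₀).mp (hBv ▸ Bv.linearIndependent)
  -- the determinant as an integral polynomial
  let Z := MvPolynomial (Fin (rk N) ⊕ Fin (rk N)) ℤ
  let D : Z := (mat Z (fun i => MvPolynomial.X (Sum.inl i)) (fun i => MvPolynomial.X (Sum.inr i))).det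
  have heval : ∀ (R : Type) [CommRing R] (z : Fin (rk N) ⊕ Fin (rk N) → R),
      MvPolynomial.eval₂Hom (Int.castRingHom R) z D
        = (mat R (fun i => z (Sum.inl i)) (fun i => z (Sum.inr i))).det := fun R _ z => by
    rw [RingHom.map_det]
    congr 1
    ext k j
    simp only [RingHom.mapMatrix_apply, Matrix.map_apply, mat, Matrix.of_apply, vecs]
    rcases ε.symm k with i | i <;>
      simp [Matrix.vecMul, dotProduct, map_sum, map_mul, map_intCast]
  have hD : D ≠ 0 := fun h => h0 (by
    have := heval ℂ (Sum.elim x₀ y₀)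
    rw [h, map_zero] at this
    exact this.symm)
  obtain ⟨z, hz⟩ : ∃ z : Fin (rk N) ⊕ Fin (rk N) → ℤ, MvPolynomial.eval z D ≠ 0 := by
    by_contra h
    push Not at h
    exact hD (MvPolynomial.funext fun z => by rw [h z, map_zero])
  refine ⟨fun i => z (Sum.inl i), fun i => z (Sum.inr i), fun K _ _ => ?_⟩
  have hdet : ∀ (L : Type) [Field L] [CharZero L],
      (mat L (fun i => (z (Sum.inl i) : L)) (fun i => (z (Sum.inr i) : L))).det ≠ 0 := fun L _ _ => by
    have e := heval L (fun i => (z i : L))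
    rw [← e, show (MvPolynomial.eval₂Hom (Int.castRingHom L) fun i => (z i : L))
      = (Int.castRingHom L).comp (MvPolynomial.eval z) from
      MvPolynomial.ringHom_ext (fun r => by simp) (fun i => by simp), RingHom.comp_apply]
    exact Int.cast_ne_zero.mpr hz
  -- every Hecke matrix is a rational combination of the chosen ones
  have hgen : ∀ Q : HeckePoly ℤ, ∃ c : b → ℚ,
      (matHom N ℤ Q).map (Int.cast : ℤ → ℚ) = ∑ i, c i • (M i).map (Int.cast : ℤ → ℚ) := by
    intro Q
    set x : Fin (rk N) → ℚ := fun i => (z (Sum.inl i) : ℚ)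
    set y : Fin (rk N) → ℚ := fun i => (z (Sum.inr i) : ℚ)
    have hliQ := (hrows ℚ x y).mpr (hdet ℚ)
    have htop : Submodule.span ℚ (Set.range (vecs ℚ x y)) = ⊤ :=
      hliQ.span_eq_top_of_card_eq_finrank' (by
        rw [Fintype.card_congr ε, Fintype.card_fin, Module.finrank_fin_fun])
    obtain ⟨c, hc⟩ := (Submodule.mem_span_range_iff_exists_fun ℚ).mp
      (htop.ge (Submodule.mem_top : x ᵥ* (matHom N ℤ Q).map (Int.cast : ℤ → ℚ) ∈ _))
    refine ⟨fun i => c (Sum.inl i), Matrix.map_injective (f := (Rat.castHom ℂ)) Rat.cast_injective ?_⟩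
    obtain ⟨γ, hγ⟩ : ∃ γ : b → ℂ, (matHom N ℤ Q).map (Int.cast : ℤ → ℂ)
        = ∑ i, γ i • (M i).map (Int.cast : ℤ → ℂ) := by
      have hQ : (matHom N ℤ Q).map (Int.cast : ℤ → ℂ) ∈ matSpace N ℂ := by
        rw [matSpace_eq_span]; exact Submodule.subset_span ⟨Q, rfl⟩
      refine ⟨fun i => B.repr ⟨_, hQ⟩ i, ?_⟩
      conv_lhs => rw [← Subtype.coe_mk (p := (· ∈ matSpace N ℂ)) _ hQ, ← B.sum_repr ⟨_, hQ⟩]
      simp only [Submodule.coe_sum, Submodule.coe_smul, hB]
    -- compare the two expressions of the row `x Q` over `ℂ`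
    have hcast : ∀ (A : Matrix (Fin (rk N)) (Fin (rk N)) ℤ),
        (A.map (Int.cast : ℤ → ℚ)).map (Rat.castHom ℂ) = A.map (Int.cast : ℤ → ℂ) := fun A => by
      ext; simp
    set x' : Fin (rk N) → ℂ := fun i => (z (Sum.inl i) : ℂ)
    set y' : Fin (rk N) → ℂ := fun i => (z (Sum.inr i) : ℂ)
    have hliC := (hrows ℂ x' y').mpr (hdet ℂ)
    have hv : ∀ i j, vecs ℂ x' y' i j = ((vecs ℚ x y i j : ℚ) : ℂ) := fun i j => by
      rcases i with i | i <;> simp [vecs, x', y', x, y, Matrix.vecMul, dotProduct]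
    have h1 : x' ᵥ* (matHom N ℤ Q).map (Int.cast : ℤ → ℂ)
        = ∑ i, (c i : ℂ) • vecs ℂ x' y' i := funext fun j => by
      have := congrArg (fun v : Fin (rk N) → ℚ => ((v j : ℚ) : ℂ)) hc
      simp only [Finset.sum_apply, Pi.smul_apply, smul_eq_mul, Rat.cast_sum, Rat.cast_mul] at this
      simp only [Finset.sum_apply, Pi.smul_apply, smul_eq_mul, hv, this]
      simp [x', x, Matrix.vecMul, dotProduct]
    have h2 : x' ᵥ* (matHom N ℤ Q).map (Int.cast : ℤ → ℂ)
        = ∑ i, Sum.elim γ 0 i • vecs ℂ x' y' i := by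
      rw [hγ, Matrix.vecMul_sum, Fintype.sum_sum_type]
      simp [vecs, Matrix.vecMul_smul]
    have heq := fun i => Fintype.linearIndependent_iff.mp hliC
      (fun i => (c i : ℂ) - Sum.elim γ 0 i)
      (by simp only [sub_smul, Finset.sum_sub_distrib, ← h1, ← h2, sub_self]) (Sum.inl i)
    simp only [Sum.elim_inl, sub_eq_zero] at heq
    show ((matHom N ℤ Q).map (Int.cast : ℤ → ℚ)).map (Rat.castHom ℂ) = _
    rw [hcast, hγ]
    ext j k
    simp [Matrix.sum_apply, ← heq]
  -- conclusion over `K`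
  set x : Fin (rk N) → K := fun i => (z (Sum.inl i) : K)
  set y : Fin (rk N) → K := fun i => (z (Sum.inr i) : K)
  have hliK := (hrows K x y).mpr (hdet K)
  have hcard : Fintype.card (b ⊕ b) = Module.finrank K (Fin (rk N) → K) := by
    rw [Fintype.card_congr ε, Fintype.card_fin, Module.finrank_fin_fun]
  have hsurjK : Function.Surjective (pairMap N x y) := by
    rw [← LinearMap.range_eq_top, eq_top_iff, ← hliK.span_eq_top_of_card_eq_finrank' hcard,
      Submodule.span_le]
    rintro _ ⟨i, rfl⟩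
    rcases i with i | i
    · exact ⟨(⟨_, hmem K i⟩, 0), by simp [pairMap_apply, vecs]⟩
    · exact ⟨(0, ⟨_, hmem K i⟩), by simp [pairMap_apply, vecs]⟩
  have hle : matSpace N K ≤ Submodule.span K (Set.range fun i => (M i).map (Int.cast : ℤ → K)) := by
    rw [matSpace_eq_span, Submodule.span_le]
    rintro _ ⟨Q, rfl⟩
    obtain ⟨c, hc⟩ := hgen Q
    refine (Submodule.mem_span_range_iff_exists_fun K).mpr ⟨fun i => (c i : K), ?_⟩
    ext j k
    have h := congrArg (fun v : Matrix (Fin (rk N)) (Fin (rk N)) ℚ => ((v j k : ℚ) : K)) hc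
    simp only [Matrix.map_apply, Matrix.sum_apply, Matrix.smul_apply, smul_eq_mul, Rat.cast_sum,
      Rat.cast_mul, Rat.cast_intCast] at h
    simp only [Matrix.map_apply, Matrix.sum_apply, Matrix.smul_apply, smul_eq_mul, h]
  have hdim : Module.finrank K (matSpace N K) ≤ Fintype.card b :=
    (Submodule.finrank_mono hle).trans (finrank_range_le_card _)
  refine ⟨?_, hsurjK⟩
  refine (LinearMap.injective_iff_surjective_of_finrank_eq_finrank (le_antisymm ?_ ?_)).mpr hsurjK
  · rw [Module.finrank_prod, ← hcard, Fintype.card_sum]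
    omega
  · exact LinearMap.finrank_le_finrank_of_surjective hsurjK

/-- **The rank of a Hecke matrix is twice the dimension of its multiples.** -/
theorem rank_eq_two_mul {K : Type} [Field K] [CharZero K]
    {S : Matrix (Fin (rk N)) (Fin (rk N)) K} (hS : S ∈ matSpace N K) :
    S.rank = 2 * Module.finrank K ((matSpace N K).map (LinearMap.mulLeft K S)) := by
  obtain ⟨x, y, h⟩ := exists_integral N
  obtain ⟨hi, hs⟩ := h K
  set Φ := pairMap N (fun i => (x i : K)) (fun i => (y i : K))
  have hmul : ∀ P : matSpace N K, (P : Matrix _ _ K) * S ∈ matSpace N K := fun P => by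
    obtain ⟨a, ha⟩ := P.2
    obtain ⟨c, rfl⟩ := hS
    exact ⟨a * c, by
      rw [← ha]
      show matHom N K (a * c) = matHom N K a * matHom N K c
      rw [map_mul]⟩
  let R : matSpace N K →ₗ[K] matSpace N K :=
    LinearMap.codRestrict _ ((LinearMap.mulRight K S).comp (matSpace N K).subtype) hmul
  have hcomp : S.vecMulLinear.comp Φ = Φ.comp (R.prodMap R) := LinearMap.ext fun P => by
    show Φ P ᵥ* S = Φ (R P.1, R P.2)
    rw [pairMap_apply, pairMap_apply, Matrix.add_vecMul, Matrix.vecMul_vecMul,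
      Matrix.vecMul_vecMul]
    rfl
  have : Module.Free K (LinearMap.range R) := Module.Free.of_divisionRing K ↥(LinearMap.range R)
  rw [← Matrix.rank_transpose, Matrix.rank, Matrix.mulVecLin_transpose,
    ← LinearMap.range_comp_of_range_eq_top S.vecMulLinear (LinearMap.range_eq_top.mpr hs), hcomp,
    LinearMap.range_comp, LinearMap.range_prodMap,
    ← (Submodule.equivMapOfInjective Φ hi _).finrank_eq,
    (LinearEquiv.ofInjective ((LinearMap.range R).subtype.prodMap (LinearMap.range R).subtype)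
      (Subtype.val_injective.prodMap Subtype.val_injective) ≪≫ₗ LinearEquiv.ofEq _ _ (by
        rw [LinearMap.range_prodMap, Submodule.range_subtype])).symm.finrank_eq,
    Module.finrank_prod, ← two_mul]
  congr 1
  rw [(Submodule.equivMapOfInjective (matSpace N K).subtype Subtype.val_injective
    (LinearMap.range R)).finrank_eq]
  refine congrArg (fun U : Submodule K _ => Module.finrank K U) ?_
  rw [← LinearMap.range_comp,
    show (matSpace N K).subtype.comp R = (LinearMap.mulRight K S).comp (matSpace N K).subtype from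
      LinearMap.ext fun P => rfl, LinearMap.range_comp, Submodule.range_subtype]
  refine SetLike.coe_injective ?_
  rw [Submodule.map_coe, Submodule.map_coe]
  exact Set.image_congr fun P hP => matSpace_commute hP hS

end Fermat.Agent.TwoAdic.C0

end
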