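import Fermat.Agent.TwoAdic.C0.Setup

/-!
# Norms on localised cohomology

Norms on localised cohomology: the signed part is the image of `∏ (1 + w_e)`, whose kernel is the
sum of the images of the `1 - w_e`.
-/

set_option autoImplicit false

open CongruenceSubgroup IsLocalRing

namespace Fermat.Agent.TwoAdic

open HeckeJ0 LevelRaising HeckeModule

/-- Residual exactness only depends on the family modulo the maximal ideal. -/
theorem IsResiduallyExact.congr {R : Type*} [CommRing R] [IsLocalRing R] {M : Type*}
    [AddCommGroup M] [Module R M] {ι : Type*} [DecidableEq ι] {w w' : ι → Module.End R M}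
    {W : Finset ι} (h : IsResiduallyExact w W)
    (he : ∀ e ∈ W, ∀ x, w' e x - w e x ∈ maximalIdeal R • (⊤ : Submodule R M)) :
    IsResiduallyExact w' W := by
  intro V hV e heV x hx
  obtain ⟨v, hv, hxv⟩ := h V hV e heV x fun e' he' => by
    have := sub_mem (hx e' he') (he e' (hV he') x)
    rwa [sub_sub_sub_cancel_left] at this
  refine ⟨v, fun e' he' hne => ?_, ?_⟩
  · have := add_mem (hv e' he' hne) (he e' (hV he') v)
    convert this using 1
    abel
  · have := sub_mem hxv (he e (hV heV) v)
    convert this using 1
    abel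

attribute [local instance] ALSetup.isPrime

namespace ALSetup

variable {O : Type} [CommRing O] [IsLocalRing O] {T : ALSetup O} {V : Finset ℕ} (hV : V ⊆ T.W)
  (hχ : T.χ = 1) (hlow : T.LowerVanish V)

variable (T) in
/-- `2 - (1 - c_e X_e)`, which is `1 - w_e` on the localisation. -/
noncomputable def negFactor (e : ℕ) : HeckePoly O := 2 - T.signFactor e

variable (T V) in
/-- The ideal of the sign conditions. -/
noncomputable def signIdeal : Ideal (HeckePoly O) := Ideal.span (T.negFactor '' V)

include hχ hlow in
lemma negFactor_smul {e : ℕ} (he : e ∈ V) (x : T.H V O) :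
    T.negFactor e • x = x - T.w O hV e x := by
  rw [negFactor, sub_smul, two_smul, signFactor_smul hV hχ hlow he]
  abel

variable [IsNoetherianRing O] [IsAdicComplete (maximalIdeal O) O]

include hχ hlow in
/-- Points fixed by a subfamily are norms. -/
theorem exists_prod_smul_eq {U : Finset ℕ} (hU : U ⊆ V) {x : T.H V O}
    (hx : x ∈ fixedPart (T.w O hV) U) :
    ∃ h : T.H V O, (∏ e ∈ U, T.signFactor e) • h = x := by
  classical
  have : NeZero (T.level V) := ⟨T.level_ne_zero hV⟩
  have := (T.free_H hV).1
  have := (T.free_H hV).2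
  induction U using Finset.induction_on generalizing x with
  | empty => exact ⟨x, by rw [Finset.prod_empty, one_smul]⟩
  | insert a U ha ih =>
    have haV : a ∈ V := hU (Finset.mem_insert_self a U)
    obtain ⟨-, -, h3⟩ := fixedPart_spec (T.w O hV) (fun e he => T.w_w hV he)
      (fun e he e' he' => T.w_comm hV he he') T.two
      ((T.alHyp hV).residuallyExact fun e he => T.mem_S e (hV he)) (insert a U) hU
    obtain ⟨y, hy, rfl⟩ := h3 a (Finset.mem_insert_self a U) x hx U (Finset.subset_insert a U) ha
    obtain ⟨h, hh⟩ := ih ((Finset.subset_insert a U).trans hU) hy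
    exact ⟨h, by rw [Finset.prod_insert ha, mul_smul, hh, signFactor_smul hV hχ hlow haV]⟩

include hχ hlow in
/-- The signed part is the image of the norm. -/
theorem exists_signPoly_smul_eq {x : T.H V O} (hx : x ∈ T.signed O hV) :
    ∃ h : T.H V O, T.signPoly V • h = x :=
  exists_prod_smul_eq hV hχ hlow subset_rfl hx

include hV hχ hlow in
/-- **The kernel of the norm.** -/
theorem mem_signIdeal_smul {x : T.H V O} (hx : T.signPoly V • x = 0) :
    x ∈ T.signIdeal V • (⊤ : Submodule (HeckePoly O) (T.H V O)) := by
  classical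
  have : NeZero (T.level V) := ⟨T.level_ne_zero hV⟩
  have := (T.free_H hV).1
  have := (T.free_H hV).2
  suffices h : ∀ U, U ⊆ V → ∀ x : T.H V O, (∏ e ∈ U, T.signFactor e) • x = 0 →
      x ∈ T.signIdeal V • (⊤ : Submodule (HeckePoly O) (T.H V O)) from h V subset_rfl x hx
  intro U
  induction U using Finset.induction_on with
  | empty =>
    intro _ x hx
    rw [Finset.prod_empty, one_smul] at hx
    rw [hx]
    exact zero_mem _
  | insert a U ha ih =>
    intro hU x hx
    have hUV : U ⊆ V := (Finset.subset_insert a U).trans hU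
    have haV : a ∈ V := hU (Finset.mem_insert_self a U)
    set y := (∏ e ∈ U, T.signFactor e) • x with hy
    have hyU : y ∈ fixedPart (T.w O hV) U := (mem_fixedPart _).mpr fun e he => by
      have heV : e ∈ V := hUV he
      rw [hy, ← Finset.mul_prod_erase U _ he, mul_smul, signFactor_smul hV hχ hlow heV, map_add,
        T.w_w hV heV, add_comm]
    have hya : T.w O hV a y = -y := by
      rw [Finset.prod_insert ha, mul_smul, ← hy, signFactor_smul hV hχ hlow haV] at hx
      exact eq_neg_of_add_eq_zero_right hx
    let w' := Function.update (T.w O hV) a (-T.w O hV a)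
    have hw'a : w' a = -T.w O hV a := Function.update_self ..
    have hw'ne : ∀ e, e ≠ a → w' e = T.w O hV e := fun e he => Function.update_of_ne he ..
    have hcomm : ∀ e ∈ V, ∀ e' ∈ V, ∀ z, w' e (w' e' z) = w' e' (w' e z) := fun e he e' he' z => by
      rcases eq_or_ne e a with h1 | h1 <;> rcases eq_or_ne e' a with h2 | h2
      · rw [h1, h2]
      · rw [h1] at he ⊢
        rw [hw'a, hw'ne _ h2, LinearMap.neg_apply, LinearMap.neg_apply, map_neg, T.w_comm hV he he']
      · rw [h2] at he' ⊢
        rw [hw'a, hw'ne _ h1, LinearMap.neg_apply, LinearMap.neg_apply, map_neg, T.w_comm hV he he']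
      · rw [hw'ne _ h1, hw'ne _ h2, T.w_comm hV he he']
    have hww : ∀ e ∈ V, ∀ z, w' e (w' e z) = z := fun e he z => by
      rcases eq_or_ne e a with h1 | h1
      · rw [h1] at he ⊢
        rw [hw'a, LinearMap.neg_apply, LinearMap.neg_apply, map_neg, neg_neg, T.w_w hV he]
      · rw [hw'ne _ h1, T.w_w hV he]
    have hres : IsResiduallyExact w' V := by
      refine ((T.alHyp hV).residuallyExact fun e he => T.mem_S e (hV he)).congr fun e he z => ?_
      change w' e z - T.w O hV e z ∈ _
      rcases eq_or_ne e a with h1 | h1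
      · rw [h1, hw'a, LinearMap.neg_apply, show -T.w O hV a z - T.w O hV a z
          = (2 : O) • -T.w O hV a z by rw [two_smul, sub_eq_add_neg]]
        exact Submodule.smul_mem_smul T.two Submodule.mem_top
      · rw [hw'ne _ h1, sub_self]
        exact zero_mem _
    have hy' : y ∈ fixedPart w' (insert a U) := (mem_fixedPart _).mpr fun e he => by
      rcases Finset.mem_insert.mp he with h1 | he
      · rw [h1, hw'a, LinearMap.neg_apply, hya, neg_neg]
      · rw [hw'ne e (fun h => ha (h ▸ he))]
        exact (mem_fixedPart _).mp hyU e he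
    obtain ⟨-, -, h3⟩ := fixedPart_spec w' hww hcomm T.two hres (insert a U) hU
    obtain ⟨z, hz, hyz⟩ := h3 a (Finset.mem_insert_self a U) y hy' U (Finset.subset_insert a U) ha
    have hzU : z ∈ fixedPart (T.w O hV) U := (mem_fixedPart _).mpr fun e he => by
      rw [← hw'ne e (fun h => ha (h ▸ he))]
      exact (mem_fixedPart _).mp hz e he
    obtain ⟨h, hh⟩ := exists_prod_smul_eq hV hχ hlow hUV hzU
    have hrec := ih hUV (x - T.negFactor a • h) (by
      rw [smul_sub, ← hy, smul_comm, hh, negFactor_smul hV hχ hlow haV, hyz, hw'a,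
        LinearMap.neg_apply, ← sub_eq_add_neg, sub_self])
    rw [← sub_add_cancel x (T.negFactor a • h)]
    exact add_mem hrec (Submodule.smul_mem_smul (Ideal.subset_span ⟨a, haV, rfl⟩) Submodule.mem_top)

end ALSetup

end Fermat.Agent.TwoAdic
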