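import Fermat.Agent.TwoAdic.C0.Norms
import Fermat.Agent.TwoAdic.C0.FormsHom
import Mathlib.RingTheory.Ideal.Quotient.Operations

/-!
# The Hecke algebra of the signed part

`T₀` is the Hecke algebra of all of the localised cohomology modulo the sign conditions; so a
homomorphism killing the annihilator of the integral cohomology, with `U_e ↦ 1`, gives the
doubling count for `T₀`.
-/

set_option autoImplicit false

open CongruenceSubgroup IsLocalRing

namespace Fermat.Agent.TwoAdic

open HeckeJ0 LevelRaising HeckeModule

attribute [local instance] ALSetup.isPrime Module.quotientAnnihilator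

namespace ALSetup

variable {O : Type} [CommRing O] [IsLocalRing O] {T : ALSetup O} {V : Finset ℕ} (hV : V ⊆ T.W)
  (hχ : T.χ = 1) (hlow : T.LowerVanish V)

variable (T V) in
/-- The Hecke algebra of all of the localised cohomology. -/
abbrev HeckeH : Type := C0.HeckeImage O (T.H V O)

variable [IsNoetherianRing O] [IsAdicComplete (maximalIdeal O) O] [IsDomain O] [CharZero O]

include hV hχ in
/-- **Localised cohomology is free of rank two** over its Hecke algebra, if two elements generate. -/
theorem exists_basis_H [IsLocalRing (T.HeckeH V)]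
    (hgen : ∃ m : Fin 2 → T.H V O, Submodule.span (T.HeckeH V) (Set.range m) ⊔
      maximalIdeal (T.HeckeH V) • (⊤ : Submodule (T.HeckeH V) (T.H V O)) = ⊤) :
    Nonempty (Module.Basis (Fin 2) (T.HeckeH V) (T.H V O)) := by
  have := (T.free_H hV).1
  have := (T.free_H hV).2
  have hann : Module.annihilator (HeckePoly O) (⊤ : Submodule (HeckePoly O) (T.H V O))
      = Module.annihilator (HeckePoly O) (T.H V O) := Submodule.topEquiv.annihilator_eq
  let e : C0.HeckeImage O (⊤ : Submodule (HeckePoly O) (T.H V O)) ≃ₗ[O] T.HeckeH V :=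
    (Ideal.quotientEquivAlgOfEq O hann).toLinearEquiv
  have hfin : Module.Finite O (T.HeckeH V) := by
    obtain ⟨k, v, hv⟩ := Module.Finite.exists_fin (R := O) (M := T.H V O)
    let L : HeckePoly O →ₗ[O] (Fin k → T.H V O) :=
      LinearMap.pi fun i => (LinearMap.toSpanSingleton (HeckePoly O) _ (v i)).restrictScalars O
    have hL : (Module.annihilator (HeckePoly O) (T.H V O)).restrictScalars O = LinearMap.ker L := by
      refine Submodule.ext fun P => ?_
      rw [Submodule.restrictScalars_mem, Module.mem_annihilator, LinearMap.mem_ker]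
      refine ⟨fun h => funext fun i => h (v i), fun h c => ?_⟩
      have : c ∈ Submodule.span O (Set.range v) := hv ▸ Submodule.mem_top
      induction this using Submodule.span_induction with
      | mem y hy => obtain ⟨i, rfl⟩ := hy; exact congrFun h i
      | zero => exact smul_zero P
      | add y z _ _ hy hz => rw [smul_add, hy, hz, add_zero]
      | smul a y _ hy => rw [smul_comm, hy, smul_zero]
    exact Module.Finite.equiv (L.quotKerEquivRange.symm ≪≫ₗ
      Submodule.quotEquivOfEq _ _ hL.symm ≪≫ₗ Submodule.Quotient.restrictScalarsEquiv O _)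
  have := C0.isTorsionFree_heckeImage (O := O) (C := T.H V O)
  refine C0.exists_basis_of_generators (O := O) ?_ hgen
  rw [← e.finrank_eq, finrank_H_eq_two_mul hV hχ]

variable (b : Module.Basis (Fin 2) (T.HeckeH V) (T.H V O))

omit [IsDomain O] [CharZero O] in
include hV hχ hlow b in
/-- **The algebra of the signed part is the full algebra modulo the sign conditions.** -/
theorem annihilator_signedHecke_eq :
    Module.annihilator (HeckePoly O) (signedHecke hV hχ hlow)
      = Module.annihilator (HeckePoly O) (T.H V O) ⊔ T.signIdeal V := by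
  refine le_antisymm (fun P hP => ?_) (sup_le (fun P hP => ?_) ?_)
  · have h0 : T.signPoly V • P • b 0 = 0 := by
      rw [smul_comm]
      exact congrArg Subtype.val
        (Module.mem_annihilator.mp hP ⟨_, signPoly_smul_mem hV hχ hlow (b 0)⟩)
    have hmem := mem_signIdeal_smul hV hχ hlow h0
    have hrep : b.repr (P • b 0) 0 = Ideal.Quotient.mk _ P := by
      rw [show P • b 0 = (Ideal.Quotient.mk _ P : T.HeckeH V) • b 0 from rfl, map_smul,
        b.repr_self, Finsupp.smul_single, Finsupp.single_eq_same, smul_eq_mul, mul_one]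
    have key : ∀ y ∈ T.signIdeal V • (⊤ : Submodule (HeckePoly O) (T.H V O)),
        b.repr y 0 ∈ (T.signIdeal V).map
          (Ideal.Quotient.mk (Module.annihilator (HeckePoly O) (T.H V O))) := fun y hy => by
      refine Submodule.smul_induction_on hy (fun r hr z _ => ?_) fun u v hu hv => ?_
      · rw [show r • z = (Ideal.Quotient.mk _ r : T.HeckeH V) • z from rfl, map_smul,
          Finsupp.smul_apply, smul_eq_mul]
        exact Ideal.mul_mem_right _ _ (Ideal.mem_map_of_mem _ hr)
      · rw [map_add, Finsupp.add_apply]
        exact add_mem hu hv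
    have h1 := key _ hmem
    rw [hrep, ← Ideal.mem_comap, Ideal.comap_map_of_surjective _ Ideal.Quotient.mk_surjective,
      ← RingHom.ker_eq_comap_bot, Ideal.mk_ker, sup_comm] at h1
    exact h1
  · rw [Module.mem_annihilator] at hP ⊢
    exact fun x => Subtype.ext (hP x)
  · refine Ideal.span_le.mpr ?_
    rintro _ ⟨e, he, rfl⟩
    rw [SetLike.mem_coe, Module.mem_annihilator]
    intro x
    refine Subtype.ext ?_
    show T.negFactor e • (x : T.H V O) = 0
    rw [negFactor_smul hV hχ hlow he, T.mem_signed.mp x.2 e he, sub_self]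

/-- The two generators of the signed part. -/
noncomputable def signedGen : Fin 2 → signedHecke hV hχ hlow :=
  fun i => ⟨T.signPoly V • b i, signPoly_smul_mem hV hχ hlow _⟩

include hV hχ hlow b in
/-- **`C₀` is free of rank two over `T₀`**, with generators the norms. -/
theorem exists_basis_signedHecke_of_H :
    ∃ b₀ : Module.Basis (Fin 2) (C0.HeckeImage O (signedHecke hV hχ hlow))
      (signedHecke hV hχ hlow), ⇑b₀ = signedGen hV hχ hlow b := by
  have := finite_signedHecke hV hχ hlow
  have := free_signedHecke hV hχ hlow
  have := finite_heckeImage hV hχ hlow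
  have := C0.isTorsionFree_heckeImage (O := O) (C := signedHecke hV hχ hlow)
  refine C0.exists_basis_of_span_eq_top (O := O) ?_ (eq_top_iff.mpr fun x _ => ?_)
  · rw [(signedHeckeEquiv hV hχ hlow).finrank_eq, finrank_signed_eq_two_mul hV hχ hlow]
  obtain ⟨h, hh⟩ := exists_signPoly_smul_eq hV hχ hlow x.2
  choose a ha using fun i => Ideal.Quotient.mk_surjective (b.equivFun h i)
  refine (Submodule.mem_span_range_iff_exists_fun _).mpr
    ⟨fun i => Ideal.Quotient.mk _ (a i), Subtype.ext ?_⟩
  rw [← hh, ← b.sum_equivFun h, Finset.smul_sum, Submodule.coe_sum]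
  refine Finset.sum_congr rfl fun i _ => ?_
  rw [← ha i]
  show a i • (T.signPoly V • b i) = T.signPoly V • a i • b i
  exact smul_comm _ _ _

omit [IsNoetherianRing O] [IsAdicComplete (maximalIdeal O) O] in
include hV hχ in
/-- A homomorphism killing the integral annihilator, invertible on the multiplicative set, kills the annihilator of the
localised cohomology. -/
theorem extendHom_eq_zero_of_annihilator [NeZero (T.level V)] {B : Type} [CommRing B] (θ : O →+* B)
    (φ : HeckePoly ℤ →+* B) (hφ : C0.KillsCoh (T.level V) φ)
    (hunit : ∀ a ∈ awayMonoid T.m, IsUnit (C0.extendHom θ φ a))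
    {P : HeckePoly O} (hP : P ∈ Module.annihilator (HeckePoly O) (T.H V O)) :
    C0.extendHom θ φ P = 0 := by
  classical
  let M : Type := LocalizedModule (awayMonoid T.m) (Coh1 (trivRep (T.level V) O O))
  have hP' : ∀ x : M, P • x = 0 := by
    show ∀ x : LocalizedModule (awayMonoid T.m) (Coh1 (trivRep (T.level V) O O)), P • x = 0
    rw [← scalarRep_char_eq (V := V) hχ]
    exact Module.mem_annihilator.mp hP
  have hex : ∀ i : Fin (rk (T.level V)), ∃ t : awayMonoid T.m,
      (t : HeckePoly O) • P • C0.latClass (N := T.level V) (Pi.single i (1 : O)) = 0 := fun i => by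
    have h := hP' (LocalizedModule.mk (C0.latClass (Pi.single i (1 : O))) 1)
    rw [LocalizedModule.smul'_mk, ← LocalizedModule.zero_mk (1 : awayMonoid T.m),
      LocalizedModule.mk_eq] at h
    obtain ⟨t, ht⟩ := h
    exact ⟨t, by simpa [Submonoid.smul_def] using ht⟩
  choose t ht using hex
  have hmat : C0.matHom (T.level V) O ((∏ i, (t i : HeckePoly O)) * P) = 0 := by
    refine Matrix.ext_of_mulVec_single fun i => ?_
    rw [Matrix.zero_mulVec]
    refine C0.latClass_injective ?_
    rw [← C0.smul_latClass, map_zero, ← Finset.prod_erase_mul _ _ (Finset.mem_univ i), mul_assoc,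
      mul_smul, mul_smul, ht i, smul_zero]
  obtain ⟨r, hr, hr1, hE⟩ := T.nonEisenstein hV
  have : Fact r.Prime := ⟨hr⟩
  have hEr : IsUnit (φ (eisen ℤ r)) := by
    rw [← C0.extendHom_map θ φ, show MvPolynomial.map (Int.castRingHom O) (eisen ℤ r) = eisen O r from
      (map_sub (MvPolynomial.map (σ := Nat.Primes) (Int.castRingHom O)) _ _).trans
        (congrArg₂ (· - ·) (MvPolynomial.map_X _ _)
          ((MvPolynomial.map_C _ _).trans (congrArg MvPolynomial.C (by simp))))]
    exact hunit _ hE
  have h0 := C0.extendHom_eq_zero θ φ hφ hr1 hEr hmat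
  rw [map_mul, map_prod] at h0
  exact (IsUnit.prod_univ_iff.mpr fun i => hunit _ (t i).2).mul_right_eq_zero.mp h0

end ALSetup

end Fermat.Agent.TwoAdic
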